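import Fermat.Agent.BurgessComposite.Moment

/-!
# Burgess's averaging modulo any `q`

The shifts are by `a b` with `a ≤ A` prime to `q`; there are at least
`A / 2 ^ ω(q) - 2 ^ (ω(q) + 1)` of them, and
`#{a₁ n₂ ≡ a₂ n₁ (mod q)} ≤ A N (1 + log A) ^ 2 + A ^ 2` for `2 A N < q`.
-/

set_option autoImplicit false

noncomputable section

namespace FA.BurgessComposite

open Finset DirichletCharacter

variable {q : ℕ} [NeZero q]

/-- The numbers up to `A` prime to `q`. -/
def unitsUpTo (q A : ℕ) : Finset ℕ := (Icc 1 A).filter fun a => Nat.Coprime a q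

/-- The numbers up to `A` divisible by none of the primes. -/
def avoidUpTo (S : Finset ℕ) (A : ℕ) : Finset ℕ := (Icc 1 A).filter fun a => ∀ p ∈ S, ¬ p ∣ a

theorem abs_card_avoidUpTo_sub_le (S : Finset ℕ) (hS : ∀ p ∈ S, Nat.Prime p) :
    ∀ A : ℕ, |((avoidUpTo S A).card : ℝ) - A * ∏ p ∈ S, (1 - (p : ℝ)⁻¹)| ≤
      2 * 2 ^ S.card - 1 := by
  induction S using Finset.induction_on with
  | empty => intro A; simp [avoidUpTo]
  | insert p S hp ih =>
    intro A
    have hpp : p.Prime := hS p (mem_insert_self p S)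
    have hS' : ∀ l ∈ S, Nat.Prime l := fun l hl => hS l (mem_insert_of_mem hl)
    obtain ⟨W, hW⟩ : ∃ W, W = ∏ l ∈ S, (1 - (l : ℝ)⁻¹) := ⟨_, rfl⟩
    have hW0 : 0 ≤ W := hW ▸ prod_nonneg fun l hl => sub_nonneg.2
      (inv_le_one_of_one_le₀ (Nat.one_le_cast.2 (hS' l hl).one_le))
    have hW1 : W ≤ 1 := hW ▸ prod_le_one
      (fun l hl => sub_nonneg.2 (inv_le_one_of_one_le₀ (Nat.one_le_cast.2 (hS' l hl).one_le)))
      fun l _ => sub_le_self _ (by positivity)
    have hsplit : (avoidUpTo S A).card =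
        (avoidUpTo (insert p S) A).card + (avoidUpTo S (A / p)).card := by
      have hdvd : (avoidUpTo S A).filter (p ∣ ·) = (avoidUpTo S (A / p)).image (p * ·) := by
        ext a
        simp only [avoidUpTo, mem_filter, mem_image, mem_Icc]
        constructor
        · rintro ⟨⟨⟨h1, h2⟩, h3⟩, j, rfl⟩
          exact ⟨j, ⟨⟨Nat.pos_of_mul_pos_left h1, (Nat.le_div_iff_mul_le hpp.pos).2
            (by rw [mul_comm]; exact h2)⟩, fun l hl h => h3 l hl (h.mul_left p)⟩, rfl⟩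
        · rintro ⟨j, ⟨⟨h1, h2⟩, h3⟩, rfl⟩
          refine ⟨⟨⟨Nat.mul_pos hpp.pos h1, ?_⟩, fun l hl h => ?_⟩, dvd_mul_right p j⟩
          · rw [mul_comm]
            exact (Nat.le_div_iff_mul_le hpp.pos).1 h2
          · rcases (hS' l hl).dvd_mul.1 h with h | h
            · exact hp (((Nat.prime_dvd_prime_iff_eq (hS' l hl) hpp).1 h) ▸ hl)
            · exact h3 l hl h
      rw [← card_filter_add_card_filter_not (s := avoidUpTo S A) (p ∣ ·), hdvd,
        card_image_of_injective _ (mul_right_injective₀ hpp.ne_zero), add_comm]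
      congr 2
      ext a
      simp only [avoidUpTo, mem_filter, forall_mem_insert]
      tauto
    rw [prod_insert hp, card_insert_of_notMem hp, ← hW, pow_succ]
    have h1 := abs_le.1 (hW ▸ ih hS' A)
    have h2 := abs_le.1 (hW ▸ ih hS' (A / p))
    have hp0 : (0 : ℝ) < p := Nat.cast_pos.2 hpp.pos
    have hlo : ((A / p : ℕ) : ℝ) ≤ A * (p : ℝ)⁻¹ := Nat.cast_div_le
    have hhi : (A : ℝ) * (p : ℝ)⁻¹ ≤ (A / p : ℕ) + 1 := by
      rw [← div_eq_mul_inv, ← Nat.floor_div_eq_div (K := ℝ)]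
      exact (Nat.lt_floor_add_one _).le
    have h3 := mul_le_mul_of_nonneg_right hlo hW0
    have h4 := mul_le_mul_of_nonneg_right hhi hW0
    have hsplit' : ((avoidUpTo S A).card : ℝ) =
        (avoidUpTo (insert p S) A).card + (avoidUpTo S (A / p)).card := by exact_mod_cast hsplit
    rw [abs_le]
    constructor <;> linarith

/-- **Units are frequent.** -/
theorem card_unitsUpTo_ge (A : ℕ) :
    (A : ℝ) / 2 ^ q.primeFactors.card - 2 * 2 ^ q.primeFactors.card ≤ (unitsUpTo q A).card := by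
  have he : unitsUpTo q A = avoidUpTo q.primeFactors A := by
    ext a
    simp only [unitsUpTo, avoidUpTo, mem_filter]
    refine and_congr_right fun _ => ⟨fun h p hp hd => ?_, fun h => ?_⟩
    · exact (Nat.prime_of_mem_primeFactors hp).ne_one
        (Nat.eq_one_of_dvd_coprimes h hd (Nat.dvd_of_mem_primeFactors hp))
    · exact Nat.coprime_of_dvd fun p hp hd hd' => h p
        (Nat.mem_primeFactors.2 ⟨hp, hd', NeZero.ne q⟩) hd
  rw [he]
  have h1 := (abs_le.1 (abs_card_avoidUpTo_sub_le q.primeFactors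
    (fun p hp => Nat.prime_of_mem_primeFactors hp) A)).1
  have h2 : ((2 : ℝ) ^ q.primeFactors.card)⁻¹ ≤ ∏ p ∈ q.primeFactors, (1 - (p : ℝ)⁻¹) := by
    rw [← inv_pow, ← prod_const]
    refine prod_le_prod (fun p _ => by norm_num) fun p hp => ?_
    have : (p : ℝ)⁻¹ ≤ 2⁻¹ := inv_anti₀ two_pos
      (Nat.ofNat_le_cast.2 (Nat.prime_of_mem_primeFactors hp).two_le)
    linarith
  have h3 := mul_le_mul_of_nonneg_left h2 (Nat.cast_nonneg (α := ℝ) A)
  rw [← div_eq_mul_inv] at h3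
  linarith

/-- `∑_{M < n ≤ M + N} χ n`. -/
def windowQ (χ : DirichletCharacter ℂ q) (M N : ℕ) : ℂ := ∑ n ∈ Ioc M (M + N), χ (n : ZMod q)

omit [NeZero q] in
theorem norm_windowQ_le (χ : DirichletCharacter ℂ q) (M N : ℕ) : ‖windowQ χ M N‖ ≤ N := by
  refine (norm_sum_le_of_le _ fun n _ => χ.norm_le_one _).trans ?_
  simp

omit [NeZero q] in
theorem windowQ_add (χ : DirichletCharacter ℂ q) (M N K : ℕ) :
    windowQ χ M (N + K) = windowQ χ M N + windowQ χ (M + N) K := by
  simp only [windowQ]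
  rw [← add_assoc, ← sum_Ioc_consecutive _ (Nat.le_add_right M N) (Nat.le_add_right (M + N) K)]

omit [NeZero q] in
theorem windowQ_shift (χ : DirichletCharacter ℂ q) (M N h : ℕ) :
    ∑ n ∈ Ioc M (M + N), χ ((n + h : ℕ) : ZMod q) = windowQ χ (M + h) N := by
  rw [windowQ, show Ioc (M + h) (M + h + N) = (Ioc M (M + N)).map (addRightEmbedding h) by
    rw [map_add_right_Ioc, add_right_comm], sum_map]
  rfl

/-- **Pólya and Vinogradov.** -/
theorem norm_windowQ_le_sqrt {χ : DirichletCharacter ℂ q} (hq : 1 < q) (hχ : χ.IsPrimitive)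
    (M N : ℕ) : ‖windowQ χ M N‖ ≤ Real.sqrt q * (1 + Real.log q) := by
  refine le_trans (le_of_eq (congrArg _ ?_)) (FA.Summary.polyaVinogradov hq hχ (M + 1 : ℤ) N)
  rw [windowQ, show Ioc M (M + N) = Ico (M + 1) (M + 1 + N) by ext; simp; omega,
    sum_Ico_eq_sum_range, Nat.add_sub_cancel_left]
  refine sum_congr rfl fun i _ => ?_
  push_cast
  rfl

/-- The pairs `(a, n)`. -/
def pairBoxQ (q A M N : ℕ) : Finset (ℕ × ℕ) := unitsUpTo q A ×ˢ Ioc M (M + N)

/-- `n / a`. -/
def quotQ (q : ℕ) (x : ℕ × ℕ) : ZMod q := (x.1 : ZMod q)⁻¹ * (x.2 : ZMod q)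

/-- The number of the pairs over `y`. -/
def multQ (q A M N : ℕ) (y : ZMod q) : ℝ :=
  ((pairBoxQ q A M N).filter fun x => quotQ q x = y).card

omit [NeZero q] in
theorem mul_quotQ {a n : ℕ} (ha : a.Coprime q) : (a : ZMod q) * quotQ q (a, n) = n := by
  rw [quotQ, ← mul_assoc, ZMod.coe_mul_inv_eq_one a ha, one_mul]

theorem sum_multQ (A M N : ℕ) :
    ∑ y : ZMod q, multQ q A M N y = ((unitsUpTo q A).card : ℝ) * N := by
  simp only [multQ]
  rw [← Nat.cast_sum, ← card_eq_sum_card_fiberwise (f := quotQ q) fun x _ => mem_univ _, pairBoxQ,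
    card_product, Nat.card_Ioc, Nat.add_sub_cancel_left, Nat.cast_mul]

omit [NeZero q] in
theorem card_solutionsQ_le {A M N a a' : ℕ} (ha : a ∈ unitsUpTo q A) (ha' : a' ∈ unitsUpTo q A)
    (hAN : 2 * A * N < q) :
    ((Ioc M (M + N) ×ˢ Ioc M (M + N)).filter
      fun x => quotQ q (a, x.1) = quotQ q (a', x.2)).card ≤ N * Nat.gcd a a' / a + 1 := by
  rw [unitsUpTo, mem_filter, mem_Icc] at ha ha'
  have : NeZero q := ⟨by omega⟩
  rcases Nat.eq_zero_or_pos N with rfl | hN
  · simp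
  obtain ⟨g, hg⟩ : ∃ g, g = Nat.gcd a a' := ⟨_, rfl⟩
  have hg0 : 0 < g := hg ▸ Nat.gcd_pos_of_pos_left _ ha.1.1
  obtain ⟨b, hb⟩ : g ∣ a := hg ▸ Nat.gcd_dvd_left a a'
  obtain ⟨b', hb'⟩ : g ∣ a' := hg ▸ Nat.gcd_dvd_right a a'
  have hcop : Nat.Coprime b b' := Nat.eq_of_mul_eq_mul_left hg0
    (by rw [← Nat.gcd_mul_left, ← hb, ← hb', ← hg, mul_one])
  rw [← hg, show N * g / a = N / b by rw [hb, mul_comm N g, Nat.mul_div_mul_left _ _ hg0]]
  rw [← card_range (N / b + 1)]
  refine card_le_card_of_injOn (fun x => (x.1 - M - 1) / b) (fun x hx => ?_) fun x hx y hy h => ?_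
  · simp only [mem_coe, mem_filter, mem_product, mem_Ioc] at hx
    rw [mem_coe, mem_range]
    exact Nat.lt_succ_of_le (Nat.div_le_div_right (by omega))
  · simp only [mem_coe, mem_filter, mem_product, mem_Ioc] at hx hy
    simp only at h
    have key : ∀ u v : ℕ, quotQ q (a, u) = quotQ q (a', v) →
        ((a' : ℤ) * u - a * v : ZMod q) = 0 := fun u v huv => by
      have h1 := mul_quotQ (n := u) ha.2
      have h2 := mul_quotQ (n := v) ha'.2
      rw [huv] at h1
      push_cast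
      rw [← h1, ← h2]
      ring
    have hzero : (((a' : ℤ) * ((x.1 : ℤ) - y.1) - (a : ℤ) * ((x.2 : ℤ) - y.2) : ℤ) : ZMod q) =
        0 := by
      have h1 := key _ _ hx.2
      have h2 := key _ _ hy.2
      push_cast at h1 h2 ⊢
      linear_combination h1 - h2
    rw [ZMod.intCast_zmod_eq_zero_iff_dvd] at hzero
    have hb1 : |(a' : ℤ) * ((x.1 : ℤ) - y.1)| ≤ (A : ℤ) * N := by
      rw [abs_mul]
      exact mul_le_mul (by rw [Nat.abs_cast]; exact_mod_cast ha'.1.2) (by rw [abs_le]; omega)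
        (abs_nonneg _) (Int.natCast_nonneg A)
    have hb2 : |(a : ℤ) * ((x.2 : ℤ) - y.2)| ≤ (A : ℤ) * N := by
      rw [abs_mul]
      exact mul_le_mul (by rw [Nat.abs_cast]; exact_mod_cast ha.1.2) (by rw [abs_le]; omega)
        (abs_nonneg _) (Int.natCast_nonneg A)
    have hlt : |(a' : ℤ) * ((x.1 : ℤ) - y.1) - (a : ℤ) * ((x.2 : ℤ) - y.2)| < (q : ℤ) := by
      refine lt_of_le_of_lt ((abs_sub _ _).trans (add_le_add hb1 hb2)) ?_
      have : ((2 * A * N : ℕ) : ℤ) < (q : ℤ) := by exact_mod_cast hAN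
      push_cast at this
      linarith
    have heq := Int.eq_zero_of_abs_lt_dvd hzero hlt
    have hdvd : (b : ℤ) ∣ (x.1 : ℤ) - y.1 := by
      refine IsCoprime.dvd_of_dvd_mul_left (Nat.isCoprime_iff_coprime.2 hcop)
        ⟨(x.2 : ℤ) - y.2, mul_left_cancel₀ (Int.natCast_ne_zero.2 hg0.ne') ?_⟩
      rw [hb, hb', Nat.cast_mul, Nat.cast_mul] at heq
      linarith
    have h1 : x.1 = y.1 := by
      have hmod : (x.1 - M - 1) ≡ (y.1 - M - 1) [MOD b] := by
        rw [Nat.modEq_iff_dvd]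
        obtain ⟨c, hc⟩ := hdvd
        exact ⟨-c, by push_cast [show M + 1 ≤ x.1 by omega, show M + 1 ≤ y.1 by omega,
          Nat.sub_sub]; linarith⟩
      have h3 := Nat.div_add_mod (x.1 - M - 1) b
      rw [h, hmod, Nat.div_add_mod] at h3
      omega
    refine Prod.ext h1 ?_
    rw [h1, sub_self, mul_zero, zero_sub, neg_eq_zero, mul_eq_zero, sub_eq_zero] at heq
    exact Nat.cast_injective (heq.resolve_left (Int.natCast_ne_zero.2 (by omega)))

theorem sum_multQ_sq_le {A M N : ℕ} (hAN : 2 * A * N < q) :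
    ∑ y : ZMod q, multQ q A M N y ^ 2 ≤ A * N * (1 + Real.log A) ^ 2 + (A : ℝ) ^ 2 := by
  classical
  have e : ∑ y : ZMod q, multQ q A M N y ^ 2 =
      ∑ a ∈ unitsUpTo q A, ∑ a' ∈ unitsUpTo q A, (((Ioc M (M + N) ×ˢ Ioc M (M + N)).filter
        fun x => quotQ q (a, x.1) = quotQ q (a', x.2)).card : ℝ) := by
    have h1 : ∑ y : ZMod q, multQ q A M N y ^ 2 =
        ∑ x ∈ pairBoxQ q A M N, multQ q A M N (quotQ q x) := by
      rw [← sum_fiberwise (pairBoxQ q A M N) (quotQ q) fun x => multQ q A M N (quotQ q x)]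
      refine sum_congr rfl fun y _ => ?_
      rw [sum_congr rfl fun x hx => by rw [(mem_filter.1 hx).2], sum_const, nsmul_eq_mul, sq]
      rfl
    rw [h1, pairBoxQ, sum_product]
    refine sum_congr rfl fun a _ => ?_
    simp only [multQ, pairBoxQ, card_filter, sum_product]
    push_cast
    rw [sum_comm]
    refine sum_congr rfl fun a' _ => sum_congr rfl fun n _ => sum_congr rfl fun n' _ => ?_
    simp only [eq_comm]
  rw [e]
  refine (sum_le_sum fun a ha => sum_le_sum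
    (g := fun a' => (N : ℝ) * ((Nat.gcd a a' : ℝ) / a) + 1) fun a' ha' => ?_).trans ?_
  · refine (Nat.cast_le.2 (card_solutionsQ_le ha ha' hAN)).trans ?_
    push_cast
    refine add_le_add (Nat.cast_div_le.trans (le_of_eq ?_)) le_rfl
    push_cast
    ring
  · refine le_trans ((sum_le_sum fun a _ => sum_le_sum_of_subset_of_nonneg (filter_subset _ _)
      fun a' _ _ => by positivity).trans (sum_le_sum_of_subset_of_nonneg (filter_subset _ _)
        fun a _ _ => sum_nonneg fun a' _ => by positivity)) ?_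
    simp only [sum_add_distrib, ← mul_sum, sum_const, Nat.card_Icc, Nat.add_sub_cancel,
      nsmul_eq_mul, mul_one]
    refine add_le_add ((mul_le_mul_of_nonneg_left (Burgess.sum_gcd_div_le A)
      (Nat.cast_nonneg N)).trans (le_of_eq (by ring))) (le_of_eq (sq _).symm)

theorem window_le_multQ (χ : DirichletCharacter ℂ q) {A B M N : ℕ} {E : ℝ}
    (hE : ∀ K h, h ≤ A * B → ‖windowQ χ K h‖ ≤ E) :
    ((unitsUpTo q A).card : ℝ) * B * ‖windowQ χ M N‖ ≤
      ∑ y : ZMod q, multQ q A M N y * ‖shortSumQ χ B y‖ +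
        ((unitsUpTo q A).card : ℝ) * B * (2 * E) := by
  obtain ⟨U, hU⟩ : ∃ U, U = unitsUpTo q A := ⟨_, rfl⟩
  have hT : ∑ y : ZMod q, multQ q A M N y * ‖shortSumQ χ B y‖ =
      ∑ x ∈ pairBoxQ q A M N, ‖shortSumQ χ B (quotQ q x)‖ := by
    rw [← sum_fiberwise (pairBoxQ q A M N) (quotQ q) fun x => ‖shortSumQ χ B (quotQ q x)‖]
    refine sum_congr rfl fun y _ => ?_
    rw [multQ, ← nsmul_eq_mul, ← sum_const]
    exact sum_congr rfl fun x hx => by rw [(mem_filter.1 hx).2]
  rw [hT, pairBoxQ, ← hU]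
  have e : (U.card : ℂ) * B * windowQ χ M N =
      ∑ a ∈ U, ∑ b ∈ Icc 1 B, windowQ χ (M + a * b) N +
        ∑ a ∈ U, ∑ b ∈ Icc 1 B, (windowQ χ M N - windowQ χ (M + a * b) N) := by
    rw [← sum_add_distrib]
    simp only [← sum_add_distrib, add_sub_cancel, sum_const, Nat.card_Icc, Nat.add_sub_cancel,
      nsmul_eq_mul, mul_assoc]
  have h1 : ‖∑ a ∈ U, ∑ b ∈ Icc 1 B, windowQ χ (M + a * b) N‖ ≤
      ∑ x ∈ U ×ˢ Ioc M (M + N), ‖shortSumQ χ B (quotQ q x)‖ := by
    rw [sum_product]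
    refine norm_sum_le_of_le _ fun a ha => ?_
    rw [hU, unitsUpTo, mem_filter] at ha
    have e2 : ∑ b ∈ Icc 1 B, windowQ χ (M + a * b) N =
        χ (a : ZMod q) * ∑ n ∈ Ioc M (M + N), shortSumQ χ B (quotQ q (a, n)) := by
      simp only [← windowQ_shift, shortSumQ, mul_sum]
      rw [sum_comm]
      refine sum_congr rfl fun n _ => sum_congr rfl fun b _ => ?_
      rw [← map_mul, mul_add, mul_quotQ ha.2]
      push_cast
      rfl
    rw [e2, norm_mul]
    exact (mul_le_of_le_one_left (norm_nonneg _) (χ.norm_le_one _)).trans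
      (norm_sum_le_of_le _ fun n _ => le_rfl)
  have h2 : ‖∑ a ∈ U, ∑ b ∈ Icc 1 B, (windowQ χ M N - windowQ χ (M + a * b) N)‖ ≤
      (U.card : ℝ) * B * (2 * E) := by
    refine (norm_sum_le_of_le _ (n := fun _ => (B : ℝ) * (2 * E)) fun a ha => ?_).trans
      (le_of_eq ?_)
    · refine (norm_sum_le_of_le _ (n := fun _ => 2 * E) fun b hb => ?_).trans (le_of_eq (by simp))
      rw [hU, unitsUpTo, mem_filter, mem_Icc] at ha
      rw [mem_Icc] at hb
      have hab : a * b ≤ A * B := Nat.mul_le_mul ha.1.2 hb.2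
      have i1 := windowQ_add χ M (a * b) N
      rw [add_comm (a * b) N, windowQ_add χ M N (a * b)] at i1
      rw [show windowQ χ M N - windowQ χ (M + a * b) N =
        windowQ χ M (a * b) - windowQ χ (M + N) (a * b) by linear_combination i1, two_mul]
      exact (norm_sub_le _ _).trans (add_le_add (hE _ _ hab) (hE _ _ hab))
    · simp [mul_assoc]
  calc (U.card : ℝ) * B * ‖windowQ χ M N‖ = ‖(U.card : ℂ) * B * windowQ χ M N‖ := by
        rw [norm_mul, norm_mul, Complex.norm_natCast, Complex.norm_natCast]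
    _ ≤ _ := by
      rw [e]
      exact (norm_add_le _ _).trans (add_le_add h1 h2)

end FA.BurgessComposite

end
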