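import Fermat.Agent.BurgessGeneral.Sums
import Fermat.Agent.AbelianFE.Split

/-!
# Complete sums of a primitive character of squarefree conductor at linear forms

`T = ∑_{x mod m} ∏_{i < r} χ (x + t i) ∏_{r ≤ i < 2 r} conj χ (x + t i)` is multiplicative in `m`
and at most `2 r √p` at a prime `p` not dividing some `∏_{j ≠ i} (t j - t i)`, so
`|T| ≤ (2 r) ^ ω(m) √m gcd (m, ∏_{j ≠ i} (t j - t i)) ^ (1/2)`.
-/

set_option autoImplicit false

noncomputable section

namespace FA.BurgessComposite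

open Finset Polynomial DirichletCharacter
open FA.AbelianFE (fstPart sndPart apply_eq_mul)
open scoped Classical

/-- The identity on the first half, conjugation on the second. -/
def halfConj (r : ℕ) (i : Fin (2 * r)) : ℂ →+* ℂ :=
  if (i : ℕ) < r then RingHom.id ℂ else starRingEnd ℂ

theorem norm_halfConj (r : ℕ) (i : Fin (2 * r)) (z : ℂ) : ‖halfConj r i z‖ = ‖z‖ := by
  rw [halfConj]
  split_ifs <;> simp

variable {r : ℕ}

/-- The complete sum. -/
def completeSum {q : ℕ} [NeZero q] (χ : DirichletCharacter ℂ q) (t : Fin (2 * r) → ℕ) : ℂ :=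
  ∑ x : ZMod q, ∏ i, halfConj r i (χ (x + ((t i : ℕ) : ZMod q)))

/-- `∏_{j ≠ i} |t j - t i|`. -/
def diffProd (t : Fin (2 * r) → ℕ) (i : Fin (2 * r)) : ℕ :=
  ∏ j ∈ univ.erase i, ((t j : ℤ) - t i).natAbs

theorem norm_completeSum_le_self {q : ℕ} [NeZero q] (χ : DirichletCharacter ℂ q)
    (t : Fin (2 * r) → ℕ) : ‖completeSum χ t‖ ≤ q := by
  refine (norm_sum_le_of_le _ (n := fun _ => (1 : ℝ)) fun x _ => ?_).trans (le_of_eq ?_)
  · rw [norm_prod]
    refine prod_le_one (fun i _ => norm_nonneg _) fun i _ => ?_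
    rw [norm_halfConj]
    exact χ.norm_le_one _
  · simp

theorem completeSum_mul {a b : ℕ} [NeZero a] [NeZero b] (h : a.Coprime b)
    (χ : DirichletCharacter ℂ (a * b)) (t : Fin (2 * r) → ℕ) :
    completeSum χ t = completeSum (fstPart h χ) t * completeSum (sndPart h χ) t := by
  rw [completeSum, completeSum, completeSum, sum_mul_sum, ← Fintype.sum_prod_type',
    ← (ZMod.chineseRemainder h).toEquiv.sum_comp]
  refine sum_congr rfl fun x _ => ?_
  rw [← prod_mul_distrib]
  refine prod_congr rfl fun i _ => ?_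
  rw [apply_eq_mul h, map_mul, map_add, map_natCast]
  rfl

theorem norm_completeSum_prime_le {p : ℕ} [Fact p.Prime] {χ : DirichletCharacter ℂ p} (hχ : χ ≠ 1)
    (t : Fin (2 * r) → ℕ) (i₀ : Fin (2 * r)) :
    ‖completeSum χ t‖ ≤
      2 * r * Real.sqrt p * Real.sqrt (Nat.gcd p (diffProd t i₀) : ℕ) := by
  have hp := (Fact.out : p.Prime)
  have hr : (1 : ℝ) ≤ r := Nat.one_le_cast.2 (by have := i₀.isLt; omega)
  rcases eq_or_ne (Nat.gcd p (diffProd t i₀)) p with hg | hg
  · rw [hg, mul_assoc, Real.mul_self_sqrt (Nat.cast_nonneg p)]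
    exact (norm_completeSum_le_self χ t).trans
      (le_mul_of_one_le_left (Nat.cast_nonneg p) (by linarith))
  have hg1 : Nat.gcd p (diffProd t i₀) = 1 :=
    ((Nat.dvd_prime hp).1 (Nat.gcd_dvd_left _ _)).resolve_right hg
  rw [hg1, Nat.cast_one, Real.sqrt_one, mul_one]
  have huniq : ∀ i, ((t i : ℕ) : ZMod p) = ((t i₀ : ℕ) : ZMod p) → i = i₀ := fun i hi => by
    by_contra hne
    refine hg (Nat.gcd_eq_left (dvd_trans ?_ (dvd_prod_of_mem _
      (mem_erase.2 ⟨hne, mem_univ i⟩))))
    rw [← Int.natCast_dvd, ← ZMod.intCast_zmod_eq_zero_iff_dvd]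
    push_cast
    rw [hi, sub_self]
  obtain ⟨d, hd⟩ : ∃ d, d = orderOf χ := ⟨_, rfl⟩
  have hd2 : 2 ≤ d := by
    have := χ.orderOf_pos
    have : orderOf χ ≠ 1 := fun e => hχ (orderOf_eq_one_iff.1 e)
    omega
  obtain ⟨e, he⟩ : ∃ e : ℕ → ℕ, e = fun i => if i < r then 1 else d - 1 := ⟨_, rfl⟩
  obtain ⟨g, hgdef⟩ : ∃ g : (ZMod p)[X],
      g = ∏ i : Fin (2 * r), (X + C ((t i : ℕ) : ZMod p)) ^ e i := ⟨_, rfl⟩
  have hval : completeSum χ t = ∑ x : ZMod p, χ (g.eval x) := by
    refine sum_congr rfl fun x _ => ?_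
    rw [hgdef, eval_prod, map_prod]
    refine prod_congr rfl fun i _ => ?_
    rw [eval_pow, eval_add, eval_X, eval_C, map_pow, halfConj, he]
    split_ifs with h
    · simp [h]
    · simp only [if_neg h, hd]
      exact BurgessGeneral.conj_eq_pow hχ _
  rw [hval]
  have hgm : g.Monic := hgdef ▸ monic_prod_of_monic _ _ fun i _ => (monic_X_add_C _).pow _
  have hroots : g.roots =
      ∑ i : Fin (2 * r), e i • ({-((t i : ℕ) : ZMod p)} : Multiset (ZMod p)) := by
    rw [hgdef, roots_prod _ _ (prod_ne_zero_iff.2 fun i _ => pow_ne_zero _ (X_add_C_ne_zero _))]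
    simp only [roots_pow, roots_X_add_C]
    rfl
  have hnd : CharacterSums.Nondeg χ g := by
    refine (CharacterSums.nondeg_iff_not_pow hgm).2 fun ⟨u, hu⟩ => ?_
    have h1 := congrArg (fun v : (ZMod p)[X] => v.roots.count (-((t i₀ : ℕ) : ZMod p))) hu
    simp only [hroots, Multiset.count_sum', Multiset.count_nsmul, Multiset.count_singleton,
      neg_inj, mul_ite, mul_one, mul_zero, roots_pow] at h1
    rw [sum_eq_single i₀ (fun i _ hi => if_neg fun h => hi (huniq i h.symm))
      (fun h => absurd (mem_univ _) h), if_pos rfl, he] at h1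
    simp only [← hd] at h1
    have h2 : d ∣ if (i₀ : ℕ) < r then 1 else d - 1 := ⟨_, h1⟩
    split_ifs at h2
    · exact absurd (Nat.le_of_dvd one_pos h2) (by omega)
    · exact absurd (Nat.le_of_dvd (by omega) h2) (by omega)
  have hcard : (g.aroots (AlgebraicClosure (ZMod p))).toFinset.card ≤ 2 * r := by
    refine le_trans (card_le_card fun y hy => ?_) ((card_image_le (s := univ) (f := fun i =>
      algebraMap (ZMod p) (AlgebraicClosure (ZMod p)) (-((t i : ℕ) : ZMod p)))).trans (by simp))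
    rw [Multiset.mem_toFinset, mem_aroots, hgdef, map_prod, prod_eq_zero_iff] at hy
    obtain ⟨-, i, -, hi⟩ := hy
    rw [map_pow] at hi
    have hi' := eq_zero_of_pow_eq_zero hi
    rw [map_add, aeval_X, aeval_C, ← eq_neg_iff_add_eq_zero] at hi'
    exact mem_image.2 ⟨i, mem_univ _, by rw [map_neg, hi']⟩
  rw [CharacterSums.card_aroots_eq_natDegree_radical hgm.ne_zero] at hcard
  refine (CharacterSums.norm_sum_mulChar_le hnd).trans ?_
  rw [ZMod.card]
  refine mul_le_mul_of_nonneg_right ?_ (Real.sqrt_nonneg _)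
  exact_mod_cast (Nat.sub_le _ _).trans hcard

/-- **The complete sum at a squarefree modulus.** -/
theorem norm_completeSum_squarefree_le (t : Fin (2 * r) → ℕ) (i₀ : Fin (2 * r)) :
    ∀ (m : ℕ) [NeZero m] (χ : DirichletCharacter ℂ m), Squarefree m → χ.IsPrimitive →
      ‖completeSum χ t‖ ≤
        (2 * r : ℝ) ^ m.primeFactors.card * Real.sqrt m *
          Real.sqrt (Nat.gcd m (diffProd t i₀) : ℕ) := by
  intro m
  induction m using Nat.recOnPrimeCoprime with
  | zero => intro h; exact absurd rfl (NeZero.ne 0)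
  | prime_pow p n hp =>
    intro _ χ hsq hprim
    rcases Nat.lt_or_ge n 2 with hn | hn
    · interval_cases n
      · refine (norm_completeSum_le_self χ t).trans ?_
        simp
      · have key : ∀ (q : ℕ), q = p → ∀ [NeZero q] (ψ : DirichletCharacter ℂ q), ψ.IsPrimitive →
            ‖completeSum ψ t‖ ≤ (2 * r : ℝ) ^ q.primeFactors.card * Real.sqrt q *
              Real.sqrt (Nat.gcd q (diffProd t i₀) : ℕ) := by
          rintro q rfl _ ψ hψ
          have := Fact.mk hp
          rw [hp.primeFactors, card_singleton, pow_one]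
          refine norm_completeSum_prime_le (fun h => ?_) t i₀
          rw [h, isPrimitive_def, DirichletCharacter.conductor_one] at hψ
          exact hp.ne_one hψ.symm
        exact key _ (pow_one p) χ hprim
    · exact absurd hsq (fun h => hp.one_lt.ne' (Nat.isUnit_iff.1
        (h p (dvd_trans (by rw [sq]) (pow_dvd_pow p hn)))))
  | coprime a b ha hb hab iha ihb =>
    intro _ χ hsq hprim
    have : NeZero a := ⟨by omega⟩
    have : NeZero b := ⟨by omega⟩
    obtain ⟨hsa, hsb⟩ := (Nat.squarefree_mul hab).1 hsq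
    rw [completeSum_mul hab, norm_mul]
    refine (mul_le_mul (iha (fstPart hab χ) hsa (AbelianFE.fstPart_isPrimitive hab χ hprim))
      (ihb (sndPart hab χ) hsb (AbelianFE.sndPart_isPrimitive hab χ hprim)) (norm_nonneg _)
      (by positivity)).trans (le_of_eq ?_)
    rw [hab.primeFactors_mul, card_union_of_disjoint hab.disjoint_primeFactors, pow_add,
      Nat.gcd_comm (a * b), hab.gcd_mul, Nat.gcd_comm _ a, Nat.gcd_comm _ b, Nat.cast_mul,
      Nat.cast_mul, Real.sqrt_mul (Nat.cast_nonneg _), Real.sqrt_mul (Nat.cast_nonneg _)]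
    ring

/-- **The complete sum at `k m`.** -/
theorem norm_completeSum_le {k m : ℕ} [NeZero k] [NeZero m] (hkm : k.Coprime m) (hm : Squarefree m)
    {χ : DirichletCharacter ℂ (k * m)} (hχ : χ.IsPrimitive) (t : Fin (2 * r) → ℕ)
    (i₀ : Fin (2 * r)) :
    ‖completeSum χ t‖ ≤ k * ((2 * r : ℝ) ^ m.primeFactors.card * Real.sqrt m *
      Real.sqrt (Nat.gcd m (diffProd t i₀) : ℕ)) := by
  rw [completeSum_mul hkm, norm_mul]
  exact mul_le_mul (norm_completeSum_le_self _ t) (norm_completeSum_squarefree_le t i₀ m _ hm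
    (AbelianFE.sndPart_isPrimitive hkm χ hχ)) (norm_nonneg _) (Nat.cast_nonneg _)

end FA.BurgessComposite

end
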