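import Fermat.Agent.BurgessComposite.Averaging
import Fermat.Agent.BurgessGeneral.PrimitiveRoot

/-!
# Burgess's inequality for composite moduli

For `q = k m`, `k ≤ K`, `(k, m) = 1`, `m` squarefree and `χ` primitive modulo `q`:
`|∑_{M < n ≤ M + N} χ n| ≤ C N ^ (1 - 1/r) q ^ ((r + 1) / (4 r ^ 2) + ε)`.
-/

set_option autoImplicit false

noncomputable section

namespace FA.BurgessComposite

open Finset DirichletCharacter

theorem exists_pow_card_primeFactors_le (b : ℝ) {δ : ℝ} (hb : 0 ≤ b) (hδ : 0 < δ) :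
    ∃ C : ℝ, 0 < C ∧ ∀ n : ℕ, n ≠ 0 → b ^ n.primeFactors.card ≤ C * (n : ℝ) ^ δ := by
  obtain ⟨j, hj⟩ := pow_unbounded_of_one_lt b (show (1 : ℝ) < 4 by norm_num)
  obtain ⟨C, hC0, hC⟩ := BurgessGeneral.exists_four_pow_card_primeFactors_le
    (show 0 < δ / (j + 1) by positivity)
  refine ⟨C ^ (j + 1), by positivity, fun n hn => ?_⟩
  refine (pow_le_pow_left₀ hb (hj.le.trans (pow_le_pow_right₀ (by norm_num) (Nat.le_succ j)))
    _).trans ?_
  rw [← pow_mul, mul_comm, pow_mul]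
  refine (pow_le_pow_left₀ (by positivity) (hC n hn) _).trans (le_of_eq ?_)
  rw [mul_pow, ← Real.rpow_natCast ((n : ℝ) ^ _), ← Real.rpow_mul (Nat.cast_nonneg _)]
  congr 2
  push_cast
  field_simp

/-- `N ^ (1 - 1/r) q ^ ((r + 1) / (4 r ^ 2) + ε)`. -/
def burgessFnQ (r q : ℕ) (ε x : ℝ) : ℝ :=
  x ^ (1 - 1 / (r : ℝ)) * (q : ℝ) ^ (((r : ℝ) + 1) / (4 * (r : ℝ) ^ 2) + ε)

theorem burgessFnQ_nonneg (r q : ℕ) (ε : ℝ) {x : ℝ} (hx : 0 ≤ x) : 0 ≤ burgessFnQ r q ε x :=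
  mul_nonneg (Real.rpow_nonneg hx _) (Real.rpow_nonneg (Nat.cast_nonneg _) _)

theorem burgessFnQ_mono {r : ℕ} (hr : 1 ≤ r) (q : ℕ) (ε : ℝ) {x y : ℝ} (hx : 0 ≤ x) (h : x ≤ y) :
    burgessFnQ r q ε x ≤ burgessFnQ r q ε y := by
  refine mul_le_mul_of_nonneg_right (Real.rpow_le_rpow hx h ?_)
    (Real.rpow_nonneg (Nat.cast_nonneg _) _)
  rw [sub_nonneg, div_le_one (Nat.cast_pos.2 hr)]
  exact Nat.one_le_cast.2 hr

theorem burgessFnQ_pow {r : ℕ} (hr : 1 ≤ r) {q : ℕ} (hq : 0 < q) (ε : ℝ) {x : ℝ} (hx : 0 ≤ x) :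
    burgessFnQ r q ε x ^ (2 * r) = x ^ (2 * r - 2) *
      (Real.sqrt q * (q : ℝ) ^ (1 / (2 * (r : ℝ))) * (q : ℝ) ^ (2 * (r : ℝ) * ε)) := by
  have hr0 : (r : ℝ) ≠ 0 := Nat.cast_ne_zero.2 (by omega)
  rw [burgessFnQ, mul_pow, ← Real.rpow_natCast, ← Real.rpow_natCast _ (2 * r),
    ← Real.rpow_mul hx, ← Real.rpow_mul (Nat.cast_nonneg _), ← Real.rpow_natCast x (2 * r - 2),
    Nat.cast_sub (by omega), Real.sqrt_eq_rpow, ← Real.rpow_add (Nat.cast_pos.2 hq),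
    ← Real.rpow_add (Nat.cast_pos.2 hq)]
  push_cast
  congr 2
  · field_simp
  · field_simp
    ring

theorem sqrt_mul_rpow_le_burgessFnQ {r : ℕ} (hr : 1 ≤ r) {q : ℕ} (hq : 0 < q) (ε : ℝ) {x : ℝ}
    (hx : (q : ℝ) ^ ((1 : ℝ) / 2 + 1 / (4 * (r : ℝ))) ≤ x) :
    Real.sqrt q * (q : ℝ) ^ ε ≤ burgessFnQ r q ε x := by
  have hq0 : (0 : ℝ) < q := Nat.cast_pos.2 hq
  refine le_trans (le_of_eq ?_) (burgessFnQ_mono hr q ε (Real.rpow_nonneg hq0.le _) hx)
  rw [burgessFnQ, ← Real.rpow_mul hq0.le, ← Real.rpow_add hq0, Real.sqrt_eq_rpow,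
    ← Real.rpow_add hq0]
  congr 1
  have : (r : ℝ) ≠ 0 := Nat.cast_ne_zero.2 (by omega)
  field_simp
  ring

variable {q : ℕ} [NeZero q] {χ : DirichletCharacter ℂ q}

theorem multQ_shortSum_le {r A B M N : ℕ} {ε c δ : ℝ} (hr : 1 ≤ r) (hc : 1 ≤ c) (hδ : 5 * δ ≤ ε)
    (hε : 0 ≤ ε) (hA : 1 ≤ A) (hAN : A ≤ N) (hAN2 : 2 * A * N < q)
    (hBu : (q : ℝ) ^ (1 / (2 * (r : ℝ))) ≤ B)
    (hNA : (N : ℝ) ≤ 64 * (q : ℝ) ^ (1 / (2 * (r : ℝ))) * A)
    (hU : (A : ℝ) ≤ 2 * (c * (q : ℝ) ^ δ) * (unitsUpTo q A).card)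
    (hlog : 1 + Real.log q ≤ c * (q : ℝ) ^ δ)
    (hmom : ∑ x : ZMod q, ‖shortSumQ χ B x‖ ^ (2 * r) ≤
      c * (q : ℝ) ^ δ * ((B : ℝ) ^ r * q + (B : ℝ) ^ (2 * r) * Real.sqrt q)) :
    ∑ y : ZMod q, multQ q A M N y * ‖shortSumQ χ B y‖ ≤
      1024 * c ^ 5 * burgessFnQ r q ε N * ((unitsUpTo q A).card * B) := by
  have hq0 : (0 : ℝ) < q := Nat.cast_pos.2 (NeZero.pos q)
  have hq1 : (1 : ℝ) ≤ q := Nat.one_le_cast.2 (NeZero.pos q)
  obtain ⟨n, hn⟩ : ∃ n : ℝ, n = (unitsUpTo q A).card := ⟨_, rfl⟩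
  rw [← hn] at hU ⊢
  obtain ⟨P, hP⟩ : ∃ P, P = (q : ℝ) ^ δ := ⟨_, rfl⟩
  rw [← hP] at hU hlog hmom
  have hP0 : 0 < P := hP ▸ Real.rpow_pos_of_pos hq0 _
  have hn0 : 0 ≤ n := hn ▸ Nat.cast_nonneg _
  obtain ⟨L, hL⟩ : ∃ L, L = 1 + Real.log q := ⟨_, rfl⟩
  rw [← hL] at hlog
  have hL1 : 1 ≤ L := hL ▸ (le_add_of_nonneg_right (Real.log_nonneg hq1))
  have hν : ∑ y : ZMod q, multQ q A M N y ^ 2 ≤ 2 * (A * N * L ^ 2) := by
    refine (sum_multQ_sq_le hAN2).trans ?_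
    have hAq : A ≤ q := by
      have h1 : 1 * A * 1 ≤ 2 * A * N :=
        Nat.mul_le_mul (Nat.mul_le_mul_right A one_le_two) (hA.trans hAN)
      omega
    have h1 : (1 + Real.log A) ^ 2 ≤ L ^ 2 := by
      refine pow_le_pow_left₀ (by linarith [Real.log_natCast_nonneg A]) ?_ 2
      have := Real.log_le_log (Nat.cast_pos.2 hA) (Nat.cast_le.2 hAq)
      linarith
    have h2 := mul_le_mul_of_nonneg_left h1 (show (0 : ℝ) ≤ A * N by positivity)
    have h3 : (A : ℝ) ^ 2 ≤ A * N := by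
      rw [sq]
      exact mul_le_mul_of_nonneg_left (Nat.cast_le.2 hAN) (Nat.cast_nonneg _)
    have h4 : (A : ℝ) * N ≤ A * N * L ^ 2 :=
      le_mul_of_one_le_right (by positivity) (one_le_pow₀ hL1)
    linarith
  obtain ⟨u, hu⟩ : ∃ u : ℝ, u = (q : ℝ) ^ (1 / (2 * (r : ℝ))) := ⟨_, rfl⟩
  rw [← hu] at hNA hBu
  have hu0 : 0 < u := hu ▸ Real.rpow_pos_of_pos hq0 _
  have hsqrt : Real.sqrt q ≤ (B : ℝ) ^ r := by
    refine le_trans (le_of_eq ?_) (pow_le_pow_left₀ hu0.le hBu r)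
    rw [hu, ← Real.rpow_natCast, ← Real.rpow_mul hq0.le, Real.sqrt_eq_rpow]
    congr 1
    have : (r : ℝ) ≠ 0 := Nat.cast_ne_zero.2 (by omega)
    field_simp
  have hmom' : ∑ x : ZMod q, ‖shortSumQ χ B x‖ ^ (2 * r) ≤
      2 * (c * P) * (B : ℝ) ^ (2 * r) * Real.sqrt q := by
    refine hmom.trans ?_
    have h1 : (B : ℝ) ^ r * q ≤ (B : ℝ) ^ (2 * r) * Real.sqrt q := by
      have := mul_le_mul_of_nonneg_left (mul_le_mul_of_nonneg_right hsqrt (Real.sqrt_nonneg q))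
        (pow_nonneg (Nat.cast_nonneg B) r)
      rw [Real.mul_self_sqrt hq0.le, ← mul_assoc, ← pow_add, ← two_mul] at this
      exact this
    have h2 := mul_le_mul_of_nonneg_left h1 (show 0 ≤ c * P by positivity)
    linarith
  have hh := Burgess.holder_pow (univ : Finset (ZMod q)) (multQ q A M N)
    (fun y => ‖shortSumQ χ B y‖) (fun y _ => Nat.cast_nonneg _) (fun y _ => norm_nonneg _) hr
  rw [sum_multQ, ← hn] at hh
  obtain ⟨G, hG⟩ : ∃ G, G = burgessFnQ r q ε N := ⟨_, rfl⟩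
  have hG0 : 0 ≤ G := hG ▸ burgessFnQ_nonneg r q ε (Nat.cast_nonneg _)
  rw [← hG]
  refine le_of_pow_le_pow_left₀ (n := 2 * r) (by omega) (by positivity) ?_
  refine hh.trans ((mul_le_mul (mul_le_mul_of_nonneg_left hν (by positivity)) hmom'
    (sum_nonneg fun y _ => pow_nonneg (norm_nonneg _) _) (by positivity)).trans ?_)
  obtain ⟨Q, hQ⟩ : ∃ Q, Q = (q : ℝ) ^ (2 * (r : ℝ) * ε) := ⟨_, rfl⟩
  have hPQ : P ^ 5 ≤ Q := by
    rw [hP, hQ, ← Real.rpow_natCast, ← Real.rpow_mul hq0.le]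
    refine Real.rpow_le_rpow_of_exponent_le hq1 ?_
    have : (1 : ℝ) * ε ≤ 2 * r * ε := mul_le_mul_of_nonneg_right
      (by linarith [show (1 : ℝ) ≤ r from Nat.one_le_cast.2 hr]) hε
    push_cast
    linarith
  have hGp : G ^ (2 * r) = (N : ℝ) ^ (2 * r - 2) * (Real.sqrt q * u * Q) := by
    rw [hG, burgessFnQ_pow hr (NeZero.pos q) ε (Nat.cast_nonneg _), hu, hQ]
  rw [mul_pow (1024 * c ^ 5 * G), mul_pow (1024 * c ^ 5), hGp]
  obtain ⟨s, hs⟩ : ∃ s, 2 * r = s + 2 := ⟨2 * r - 2, by omega⟩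
  rw [hs, Nat.add_sub_cancel]
  have hc5 : (1 : ℝ) ≤ c ^ 5 := one_le_pow₀ hc
  have hD : 1024 * c ^ 5 ≤ (1024 * c ^ 5) ^ (s + 2) := le_self_pow₀ (by linarith) (by omega)
  have h1 : 2 * ((A : ℝ) * N * L ^ 2) * (2 * (c * P)) ≤
      256 * (c * P) ^ 3 * (u * (A * A)) := by
    have e1 := mul_le_mul_of_nonneg_left hNA
      (show (0 : ℝ) ≤ 4 * (A * L ^ 2) * (c * P) by positivity)
    have e2 := mul_le_mul_of_nonneg_left (pow_le_pow_left₀ (by linarith) hlog 2)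
      (show (0 : ℝ) ≤ 256 * (c * P) * (u * (A * A)) by positivity)
    linarith
  have h2 : 256 * (c * P) ^ 3 * (u * ((A : ℝ) * A)) ≤
      1024 * c ^ 5 * P ^ 5 * (u * (n * n)) := by
    have e1 := mul_le_mul_of_nonneg_left (mul_le_mul hU hU (Nat.cast_nonneg _) (by positivity))
      (show (0 : ℝ) ≤ 256 * (c * P) ^ 3 * u by positivity)
    linarith
  have h2' : 1024 * c ^ 5 * P ^ 5 * (u * (n * n)) ≤
      (1024 * c ^ 5) ^ (s + 2) * Q * (u * (n * n)) :=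
    mul_le_mul_of_nonneg_right (mul_le_mul hD hPQ (by positivity) (by positivity)) (by positivity)
  have h3 := mul_le_mul_of_nonneg_left ((h1.trans h2).trans h2') (show (0 : ℝ) ≤
    (n * N) ^ s * (B : ℝ) ^ (s + 2) * Real.sqrt q by positivity)
  refine le_trans (le_of_eq ?_) (h3.trans (le_of_eq ?_))
  · ring
  · ring

/-- Burgess's inequality from the moments. -/
theorem norm_windowQ_le_of_moment (hq : 1 < q) (hχ : χ.IsPrimitive) {r : ℕ} (hr : 1 ≤ r)
    {ε c δ : ℝ} (hc : 1 ≤ c) (hδ0 : 0 ≤ δ) (hδ : 5 * δ ≤ ε)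
    (hω : (4 : ℝ) ^ q.primeFactors.card ≤ c * (q : ℝ) ^ δ)
    (hlog : 1 + Real.log q ≤ c * (q : ℝ) ^ δ)
    (hmom : ∀ B : ℕ, ∑ x : ZMod q, ‖shortSumQ χ B x‖ ^ (2 * r) ≤
      c * (q : ℝ) ^ δ * ((B : ℝ) ^ r * q + (B : ℝ) ^ (2 * r) * Real.sqrt q))
    (M N : ℕ) : ‖windowQ χ M N‖ ≤ 2048 * c ^ 5 * burgessFnQ r q ε N := by
  have hε : 0 ≤ ε := by linarith
  have hq1 : (1 : ℝ) ≤ q := Nat.one_le_cast.2 hq.le
  have hq0 : (0 : ℝ) < q := by linarith
  obtain ⟨C, hC⟩ : ∃ C, C = 2048 * c ^ 5 := ⟨_, rfl⟩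
  have hc5 : c ≤ c ^ 5 := le_self_pow₀ hc (by norm_num)
  have hC0 : 2048 * c ≤ C := by rw [hC]; linarith
  rw [← hC]
  have hsqrt : ∀ M' N' : ℕ, (q : ℝ) ^ ((1 : ℝ) / 2 + 1 / (4 * (r : ℝ))) ≤ N' ∨ r = 1 →
      ‖windowQ χ M' N'‖ ≤ C * burgessFnQ r q ε N' := by
    intro M' N' h
    have h1 : Real.sqrt q * (q : ℝ) ^ ε ≤ burgessFnQ r q ε N' := by
      rcases h with h | rfl
      · exact sqrt_mul_rpow_le_burgessFnQ hr (by omega) ε h
      · rw [burgessFnQ, Nat.cast_one, div_one, sub_self, Real.rpow_zero, one_mul,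
          Real.sqrt_eq_rpow, ← Real.rpow_add hq0]
        norm_num
    refine (norm_windowQ_le_sqrt hq hχ M' N').trans ?_
    refine (mul_le_mul_of_nonneg_left hlog (Real.sqrt_nonneg _)).trans ?_
    refine le_trans ?_ (mul_le_mul (show c ≤ C by linarith) h1 (by positivity) (by linarith))
    rw [mul_left_comm]
    exact mul_le_mul_of_nonneg_left (mul_le_mul_of_nonneg_left
      (Real.rpow_le_rpow_of_exponent_le hq1 (by linarith)) (Real.sqrt_nonneg _)) (by linarith)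
  induction N using Nat.strong_induction_on generalizing M with
  | _ N ih =>
    rcases eq_or_lt_of_le hr with h1 | h1
    · exact hsqrt M N (Or.inr h1.symm)
    have hr2 : (2 : ℝ) ≤ r := Nat.ofNat_le_cast.2 h1
    by_cases hN : (q : ℝ) ^ ((1 : ℝ) / 2 + 1 / (4 * (r : ℝ))) ≤ N
    · exact hsqrt M N (Or.inl hN)
    rw [not_le] at hN
    obtain ⟨u, hu⟩ : ∃ u : ℝ, u = (q : ℝ) ^ (1 / (2 * (r : ℝ))) := ⟨_, rfl⟩
    have hu1 : 1 ≤ u := hu ▸ Real.one_le_rpow hq1 (by positivity)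
    obtain ⟨B, hB⟩ : ∃ B, B = ⌈u⌉₊ := ⟨_, rfl⟩
    have hBu : u ≤ B := hB ▸ Nat.le_ceil u
    have hB2 : (B : ℝ) ≤ 2 * u := by
      have := (Nat.ceil_lt_add_one (show 0 ≤ u by linarith)).le
      rw [← hB] at this
      linarith
    have hBr : (0 : ℝ) < B := by linarith
    obtain ⟨A, hA⟩ : ∃ A, A = ⌊(N : ℝ) / (16 * B)⌋₊ := ⟨_, rfl⟩
    have hAle : (A : ℝ) ≤ (N : ℝ) / (16 * B) := hA ▸ Nat.floor_le (by positivity)
    have hlt : (N : ℝ) < ((A : ℝ) + 1) * (16 * B) := by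
      rw [← div_lt_iff₀ (by positivity), hA]
      exact Nat.lt_floor_add_one _
    obtain ⟨P, hP⟩ : ∃ P, P = (q : ℝ) ^ δ := ⟨_, rfl⟩
    rw [← hP] at hω hlog
    have hP1 : 1 ≤ P := hP ▸ Real.one_le_rpow hq1 hδ0
    obtain ⟨W, hW⟩ : ∃ W : ℝ, W = 2 ^ q.primeFactors.card := ⟨_, rfl⟩
    have hW1 : 1 ≤ W := hW ▸ one_le_pow₀ one_le_two
    have hW4 : W * W = (4 : ℝ) ^ q.primeFactors.card := by
      rw [hW, ← mul_pow]
      norm_num
    by_cases hbig : 4 * (W * W) ≤ A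
    · have hWc : W ≤ c * P := (le_mul_of_one_le_left (by linarith) hW1).trans (hW4.le.trans hω)
      have hA1 : 1 ≤ A := by
        rw [← Nat.one_le_cast (α := ℝ)]
        linarith [one_le_mul_of_one_le_of_one_le hW1 hW1]
      have hAB : (A : ℝ) * B ≤ N / 16 := by
        refine (mul_le_mul_of_nonneg_right hAle hBr.le).trans (le_of_eq ?_)
        field_simp
      have hAN : A ≤ N := by
        rw [← Nat.cast_le (α := ℝ)]
        have : (A : ℝ) ≤ A * B := le_mul_of_one_le_right (Nat.cast_nonneg _) (by linarith)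
        linarith [Nat.cast_nonneg (α := ℝ) N]
      have hU : (A : ℝ) ≤ 2 * (c * P) * (unitsUpTo q A).card := by
        have h := card_unitsUpTo_ge (q := q) A
        rw [← hW, sub_le_iff_le_add, div_le_iff₀ (by linarith)] at h
        have := mul_le_mul_of_nonneg_right hWc (Nat.cast_nonneg (α := ℝ) (unitsUpTo q A).card)
        linarith
      have hU0 : (0 : ℝ) < (unitsUpTo q A).card := by
        by_contra h
        have h' : ((unitsUpTo q A).card : ℝ) = 0 := le_antisymm (not_lt.1 h) (Nat.cast_nonneg _)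
        rw [h', mul_zero] at hU
        linarith [show (1 : ℝ) ≤ A from Nat.one_le_cast.2 hA1]
      have hNA : (N : ℝ) ≤ 64 * u * A := by
        have : ((A : ℝ) + 1) * (16 * B) ≤ (2 * A) * (16 * (2 * u)) :=
          mul_le_mul (by linarith [show (1 : ℝ) ≤ A from Nat.one_le_cast.2 hA1]) (by linarith)
            (by linarith) (by positivity)
        linarith
      have hAN2 : 2 * A * N < q := by
        rw [← Nat.cast_lt (α := ℝ)]
        push_cast
        have h1 : (N : ℝ) * N ≤ q * u := by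
          refine (mul_le_mul hN.le hN.le (Nat.cast_nonneg _) (by positivity)).trans (le_of_eq ?_)
          rw [hu, ← Real.rpow_add hq0]
          conv_rhs => rw [← Real.rpow_one_add' (by linarith) (by positivity)]
          congr 1
          field_simp
          ring
        have h2 : (A : ℝ) * N * (16 * B) ≤ N * N := by
          rw [le_div_iff₀ (by linarith)] at hAle
          have := mul_le_mul_of_nonneg_right hAle (Nat.cast_nonneg (α := ℝ) N)
          linarith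
        have h3 : (A : ℝ) * N * u ≤ A * N * B := mul_le_mul_of_nonneg_left hBu (by positivity)
        have h4 : (A : ℝ) * N * 16 * u ≤ q * u := by linarith
        have h5 := le_of_mul_le_mul_right h4 (by linarith)
        linarith
      obtain ⟨G, hG⟩ : ∃ G, G = burgessFnQ r q ε N := ⟨_, rfl⟩
      have hG0 : 0 ≤ G := hG ▸ burgessFnQ_nonneg r q ε (Nat.cast_nonneg _)
      rw [← hG]
      have hsmall : burgessFnQ r q ε ((N : ℝ) / 16) ≤ G / 4 := by
        rw [hG, burgessFnQ, burgessFnQ, Real.div_rpow (Nat.cast_nonneg _) (by norm_num),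
          div_mul_eq_mul_div]
        refine div_le_div_of_nonneg_left (by positivity) (by norm_num) ?_
        calc (4 : ℝ) = (16 : ℝ) ^ ((1 : ℝ) / 2) := by
              rw [← Real.sqrt_eq_rpow, show (16 : ℝ) = 4 ^ 2 by norm_num,
                Real.sqrt_sq (by norm_num)]
          _ ≤ _ := Real.rpow_le_rpow_of_exponent_le (by norm_num) (by
              have : (1 : ℝ) / r ≤ 1 / 2 := by gcongr
              linarith)
      have hE : ∀ K h, h ≤ A * B → ‖windowQ χ K h‖ ≤ C * (G / 4) := by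
        intro K h hh
        have h1' : (h : ℝ) ≤ N / 16 := le_trans (by exact_mod_cast hh) hAB
        have h2 : h < N := by
          rw [← Nat.cast_lt (α := ℝ)]
          have : (0 : ℝ) < N := Nat.cast_pos.2 (by omega)
          linarith
        exact (ih h h2 K).trans (mul_le_mul_of_nonneg_left
          ((burgessFnQ_mono (by omega) q ε (Nat.cast_nonneg _) h1').trans hsmall) (by linarith))
      have hwin := window_le_multQ χ (M := M) (N := N) hE
      have hT := multQ_shortSum_le (χ := χ) (M := M) hr hc hδ hε hA1 hAN hAN2 (hu ▸ hBu)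
        (hu ▸ hNA) (hP ▸ hU) (hP ▸ hlog) (hmom B)
      rw [← hG] at hT
      refine le_of_mul_le_mul_left (hwin.trans ((add_le_add hT le_rfl).trans (le_of_eq ?_)))
        (mul_pos hU0 hBr)
      rw [hC]
      ring
    · -- short windows: the trivial bound
      refine (norm_windowQ_le χ M N).trans ?_
      rw [not_le] at hbig
      rcases Nat.eq_zero_or_pos N with rfl | hN0
      · simp only [Nat.cast_zero]
        exact mul_nonneg (by linarith) (burgessFnQ_nonneg r q ε le_rfl)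
      have hN0' : (0 : ℝ) < N := Nat.cast_pos.2 hN0
      have hN' : (N : ℝ) ≤ 160 * c * (u * P) := by
        have h5 : (A : ℝ) + 1 ≤ 5 * (c * P) := by linarith [one_le_mul_of_one_le_of_one_le hW1 hW1]
        have := mul_le_mul h5 (show 16 * (B : ℝ) ≤ 32 * u by linarith) (by linarith)
          (by positivity)
        linarith
      have hr0 : (0 : ℝ) < r := by linarith
      have h2 : (N : ℝ) ^ (1 / (r : ℝ)) ≤
          C * (q : ℝ) ^ (((r : ℝ) + 1) / (4 * (r : ℝ) ^ 2) + ε) := by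
        refine (Real.rpow_le_rpow hN0'.le hN' (by positivity)).trans ?_
        have h160 : (1 : ℝ) ≤ 160 * c := by linarith
        rw [hu, hP, Real.mul_rpow (by linarith) (by positivity), ← Real.rpow_add hq0,
          ← Real.rpow_mul hq0.le]
        refine mul_le_mul ?_ (Real.rpow_le_rpow_of_exponent_le hq1 ?_) (by positivity) (by linarith)
        · refine ((Real.rpow_le_rpow_of_exponent_le h160 ?_).trans_eq (Real.rpow_one _)).trans
            (by linarith)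
          rw [div_le_one hr0]
          linarith
        · rw [add_mul]
          refine add_le_add ?_ ?_
          · rw [div_mul_div_comm, div_le_div_iff₀ (by positivity) (by positivity)]
            nlinarith
          · refine le_trans (mul_le_of_le_one_right hδ0 ?_) (by linarith)
            rw [div_le_one hr0]
            linarith
      calc (N : ℝ) = (N : ℝ) ^ (1 - 1 / (r : ℝ)) * (N : ℝ) ^ (1 / (r : ℝ)) := by
            rw [← Real.rpow_add hN0', sub_add_cancel, Real.rpow_one]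
        _ ≤ (N : ℝ) ^ (1 - 1 / (r : ℝ)) *
            (C * (q : ℝ) ^ (((r : ℝ) + 1) / (4 * (r : ℝ) ^ 2) + ε)) :=
          mul_le_mul_of_nonneg_left h2 (by positivity)
        _ = C * burgessFnQ r q ε N := by rw [burgessFnQ]; ring

theorem exists_one_add_log_le {δ : ℝ} (hδ : 0 < δ) :
    ∃ C : ℝ, ∀ x : ℝ, 1 ≤ x → 1 + Real.log x ≤ C * x ^ δ := by
  refine ⟨1 + 1 / δ, fun x hx => ?_⟩
  rw [add_mul, one_mul, div_mul_eq_mul_div, one_mul]
  exact add_le_add (Real.one_le_rpow hx hδ.le) (Real.log_le_rpow_div (by linarith) hδ)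

/-- **Burgess's inequality for composite moduli.** -/
theorem exists_burgess_composite (K : ℕ) {r : ℕ} (hr : 1 ≤ r) {ε : ℝ} (hε : 0 < ε) :
    ∃ C : ℝ, ∀ (k m : ℕ) [NeZero k] [NeZero m], k ≤ K → k.Coprime m → Squarefree m → 1 < k * m →
      ∀ (χ : DirichletCharacter ℂ (k * m)), χ.IsPrimitive → ∀ M N : ℕ,
        ‖windowQ χ M N‖ ≤ C * burgessFnQ r (k * m) ε N := by
  obtain ⟨δ, hδ⟩ : ∃ δ, δ = ε / 5 := ⟨_, rfl⟩
  have hδ0 : 0 < δ := hδ ▸ by positivity
  obtain ⟨b, hb⟩ : ∃ b : ℝ, b = 2 * r * 2 ^ (2 * r - 1) := ⟨_, rfl⟩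
  have hb0 : 0 ≤ b := hb ▸ by positivity
  obtain ⟨C₁, hC₁0, hC₁⟩ := exists_pow_card_primeFactors_le 4 (by norm_num) hδ0
  obtain ⟨C₂, hC₂⟩ := exists_one_add_log_le hδ0
  obtain ⟨C₃, hC₃0, hC₃⟩ := exists_pow_card_primeFactors_le b hb0 hδ0
  obtain ⟨D, hD⟩ : ∃ D : ℝ, D = K * ((2 * r : ℕ) * 2 ^ (2 * r - 1)) := ⟨_, rfl⟩
  obtain ⟨c, hc⟩ : ∃ c, c = max (max 1 C₁) (max C₂ (max ((r : ℝ) ^ (2 * r)) (D * C₃))) := ⟨_, rfl⟩
  have hc1 : 1 ≤ c := hc ▸ le_max_of_le_left (le_max_left _ _)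
  refine ⟨2048 * c ^ 5, fun k m _ _ hk hkm hm hq χ hχ M N => ?_⟩
  have : NeZero (k * m) := ⟨by omega⟩
  obtain ⟨P, hP⟩ : ∃ P, P = ((k * m : ℕ) : ℝ) ^ δ := ⟨_, rfl⟩
  have hq1 : (1 : ℝ) ≤ ((k * m : ℕ) : ℝ) := Nat.one_le_cast.2 hq.le
  have hP1 : 1 ≤ P := hP ▸ Real.one_le_rpow hq1 hδ0.le
  refine norm_windowQ_le_of_moment hq hχ hr hc1 hδ0.le (by linarith) ?_ ?_ (fun B => ?_) M N
  · exact (hC₁ _ (by omega)).trans (mul_le_mul_of_nonneg_right
      (hc ▸ le_max_of_le_left (le_max_right _ _)) (by positivity))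
  · exact (hC₂ _ hq1).trans (mul_le_mul_of_nonneg_right
      (hc ▸ le_max_of_le_right (le_max_left _ _)) (by positivity))
  refine (sum_norm_shortSumQ_pow_le hkm hm hχ hr B).trans ?_
  have e1 : (r : ℝ) ^ (2 * r) * (B : ℝ) ^ r * (k * m : ℕ) ≤
      c * P * ((B : ℝ) ^ r * (k * m : ℕ)) := by
    rw [mul_assoc ((r : ℝ) ^ (2 * r))]
    refine mul_le_mul_of_nonneg_right ?_ (by positivity)
    exact (show (r : ℝ) ^ (2 * r) ≤ c from
      hc ▸ le_max_of_le_right (le_max_of_le_right (le_max_left _ _))).trans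
      (le_mul_of_one_le_right (by linarith) hP1)
  have hdiv : m.divisors.card = 2 ^ m.primeFactors.card := by
    rw [Nat.card_divisors (NeZero.ne m), ← prod_const]
    refine prod_congr rfl fun p hp => ?_
    rw [Nat.factorization_eq_one_of_squarefree hm (Nat.prime_of_mem_primeFactors hp)
      (Nat.dvd_of_mem_primeFactors hp)]
  have hks : (k : ℝ) * Real.sqrt m ≤ K * Real.sqrt (k * m : ℕ) := by
    refine mul_le_mul (Nat.cast_le.2 hk) (Real.sqrt_le_sqrt (Nat.cast_le.2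
      (Nat.le_mul_of_pos_left m (NeZero.pos k)))) (Real.sqrt_nonneg _) (Nat.cast_nonneg _)
  have hbm : b ^ m.primeFactors.card ≤ C₃ * P :=
    (hC₃ m (NeZero.ne m)).trans (mul_le_mul_of_nonneg_left (hP ▸ Real.rpow_le_rpow
      (Nat.cast_nonneg _) (Nat.cast_le.2 (Nat.le_mul_of_pos_left m (NeZero.pos k))) hδ0.le)
        hC₃0.le)
  have e2 : (k : ℝ) * (2 * r : ℝ) ^ m.primeFactors.card * Real.sqrt m *
      ((2 * r : ℕ) * ((2 * m.divisors.card : ℝ) ^ (2 * r - 1) * (B : ℝ) ^ (2 * r))) ≤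
        c * P * ((B : ℝ) ^ (2 * r) * Real.sqrt (k * m : ℕ)) := by
    rw [hdiv, Nat.cast_pow, Nat.cast_ofNat, mul_pow (2 : ℝ) ((2 : ℝ) ^ _), ← pow_mul,
      mul_comm m.primeFactors.card, pow_mul,
      show (k : ℝ) * (2 * r : ℝ) ^ m.primeFactors.card * Real.sqrt m *
        ((2 * r : ℕ) * (2 ^ (2 * r - 1) * ((2 : ℝ) ^ (2 * r - 1)) ^ m.primeFactors.card *
          (B : ℝ) ^ (2 * r))) = k * Real.sqrt m * ((2 * r : ℕ) * 2 ^ (2 * r - 1)) *
        b ^ m.primeFactors.card * (B : ℝ) ^ (2 * r) by rw [hb, mul_pow]; ring]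
    refine (mul_le_mul_of_nonneg_right (mul_le_mul (mul_le_mul_of_nonneg_right hks (by positivity))
      hbm (by positivity) (by positivity)) (by positivity)).trans ?_
    have hDC : D * C₃ ≤ c := hc ▸ le_max_of_le_right (le_max_of_le_right (le_max_right _ _))
    rw [hD] at hDC
    have := mul_le_mul_of_nonneg_right hDC
      (show 0 ≤ P * ((B : ℝ) ^ (2 * r) * Real.sqrt (k * m : ℕ)) by positivity)
    linarith
  rw [← hP, mul_add]
  exact add_le_add e1 e2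

end FA.BurgessComposite

end
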