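import Fermat.Agent.BurgessComposite.Inequality
import Fermat.Agent.BurgessApplications.Tail
import Fermat.Agent.ClassNumberExtremes.Tail

/-!
# `L`-values at composite moduli

`|L(1/2 + i t, χ)| ≪ (1 + |t|) q ^ (3/16 + ε)` and `|L(1, χ)| ≤ (1/4 + ε) log q` for primitive
characters of conductor squarefree up to a bounded factor.
-/

set_option autoImplicit false

noncomputable section

namespace FA.BurgessComposite

open MeasureTheory Filter DirichletCharacter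
open FA.Siegel (charSum tail)

theorem charSum_eq_windowQ {q : ℕ} [NeZero q] (χ : DirichletCharacter ℂ q) (t : ℝ) :
    charSum χ t = windowQ χ 0 ⌊t⌋₊ := by
  rw [charSum, windowQ, zero_add]
  rfl

theorem ne_one_of_isPrimitive {q : ℕ} (hq : 1 < q) {χ : DirichletCharacter ℂ q}
    (h : χ.IsPrimitive) : χ ≠ 1 := by
  rintro rfl
  have : NeZero q := ⟨by omega⟩
  rw [isPrimitive_def, DirichletCharacter.conductor_one] at h
  omega

theorem norm_tail_le_split {q : ℕ} [NeZero q] {χ : DirichletCharacter ℂ q} (hχ : χ ≠ 1) {s : ℂ}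
    (hs : 0 < s.re) {X : ℝ} (hX : 1 ≤ X) (hXq : X ≤ q) {B₁ B₂ B₃ : ℝ}
    (h₁ : ‖∫ t in Set.Ioc 1 X, charSum χ t * (t : ℂ) ^ (-(s + 1))‖ ≤ B₁)
    (h₂ : ‖∫ t in Set.Ioc X q, charSum χ t * (t : ℂ) ^ (-(s + 1))‖ ≤ B₂)
    (h₃ : ‖∫ t in Set.Ioi (q : ℝ), charSum χ t * (t : ℂ) ^ (-(s + 1))‖ ≤ B₃) :
    ‖tail χ s‖ ≤ B₁ + B₂ + B₃ := by
  have hint := FA.Siegel.integrable_integrand hχ hs
  have hi : IntegrableOn (fun t : ℝ => charSum χ t * (t : ℂ) ^ (-(s + 1))) (Set.Ioi X) :=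
    hint.mono_set (Set.Ioi_subset_Ioi hX)
  rw [tail, ← Set.Ioc_union_Ioi_eq_Ioi hX, setIntegral_union (Set.Ioc_disjoint_Ioi le_rfl)
    measurableSet_Ioi (hint.mono_set Set.Ioc_subset_Ioi_self) hi,
    ← Set.Ioc_union_Ioi_eq_Ioi hXq, setIntegral_union (Set.Ioc_disjoint_Ioi le_rfl)
    measurableSet_Ioi (hi.mono_set Set.Ioc_subset_Ioi_self)
    (hi.mono_set (Set.Ioi_subset_Ioi hXq)), add_assoc]
  exact (norm_add_le _ _).trans (add_le_add h₁ ((norm_add_le _ _).trans (add_le_add h₂ h₃)))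

/-- **Subconvexity in the conductor.** -/
theorem exists_subconvexity_composite (K : ℕ) {ε : ℝ} (hε : 0 < ε) :
    ∃ C : ℝ, ∀ (k m : ℕ) [NeZero k] [NeZero m], k ≤ K → k.Coprime m → Squarefree m → 1 < k * m →
      ∀ (χ : DirichletCharacter ℂ (k * m)), χ.IsPrimitive → ∀ t : ℝ,
        ‖LFunction χ (1 / 2 + t * Complex.I)‖ ≤
          C * (1 + |t|) * ((k * m : ℕ) : ℝ) ^ ((3 : ℝ) / 16 + ε) := by
  obtain ⟨C, hC⟩ := exists_burgess_composite K (r := 2) one_le_two (half_pos hε)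
  obtain ⟨D, hD⟩ := exists_one_add_log_le (half_pos hε)
  obtain ⟨E, hE0, hCE⟩ : ∃ E, 0 ≤ E ∧ C ≤ E := ⟨max C 0, le_max_right _ _, le_max_left _ _⟩
  have hD1 : 1 ≤ D := by
    have := hD 1 le_rfl
    simpa using this
  refine ⟨(E + 2) * D, fun k m _ _ hk hkm hm hq χ hχ t => ?_⟩
  have : NeZero (k * m) := ⟨by omega⟩
  have hχ1 := ne_one_of_isPrimitive hq hχ
  obtain ⟨Q, hQ⟩ : ∃ Q : ℝ, Q = ((k * m : ℕ) : ℝ) := ⟨_, rfl⟩
  have hQ1 : 1 ≤ Q := hQ ▸ Nat.one_le_cast.2 hq.le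
  have hQ0 : 0 < Q := by linarith
  obtain ⟨s, hs⟩ : ∃ s, s = (1 / 2 : ℂ) + t * Complex.I := ⟨_, rfl⟩
  have hre : s.re = 1 / 2 := by simp [hs]
  obtain ⟨P, hP⟩ : ∃ P, P = Q ^ ((3 : ℝ) / 16 + ε / 2) := ⟨_, rfl⟩
  have hP1 : 1 ≤ P := hP ▸ Real.one_le_rpow hQ1 (by linarith)
  obtain ⟨L, hL⟩ : ∃ L, L = 1 + Real.log Q := ⟨_, rfl⟩
  have hL1 : 1 ≤ L := hL ▸ le_add_of_nonneg_right (Real.log_nonneg hQ1)
  have h₁ : ‖∫ u in Set.Ioc (1 : ℝ) 1, charSum χ u * (u : ℂ) ^ (-(s + 1))‖ ≤ 0 := by simp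
  have h₂ : ‖∫ u in Set.Ioc (1 : ℝ) Q, charSum χ u * (u : ℂ) ^ (-(s + 1))‖ ≤
      E * P * Real.log (Q / 1) := by
    refine BurgessApplications.norm_piece_le (e := 1 / 2) one_pos hQ1 (fun u hu => ?_)
      (by rw [hre]; norm_num)
    have hu0 : 0 < u := one_pos.trans hu.1
    rw [charSum_eq_windowQ]
    refine (hC k m hk hkm hm hq χ hχ 0 ⌊u⌋₊).trans ?_
    refine (mul_le_mul hCE (burgessFnQ_mono one_le_two _ _ (Nat.cast_nonneg _)
      (Nat.floor_le hu0.le)) (burgessFnQ_nonneg _ _ _ (Nat.cast_nonneg _)) hE0).trans (le_of_eq ?_)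
    rw [burgessFnQ, hP, hQ, mul_comm (u ^ _), mul_assoc]
    norm_num
  have h₃ : ‖∫ u in Set.Ioi Q, charSum χ u * (u : ℂ) ^ (-(s + 1))‖ ≤ 2 * L := by
    refine (BurgessApplications.norm_beyond_le hQ0 (by rw [hre]; norm_num)
      (B := Real.sqrt Q * L) fun u _ => ?_).trans (le_of_eq ?_)
    · rw [charSum_eq_windowQ, hL, hQ]
      exact norm_windowQ_le_sqrt hq hχ 0 _
    · rw [hre, Real.rpow_neg hQ0.le, ← Real.sqrt_eq_rpow]
      have : Real.sqrt Q ≠ 0 := (Real.sqrt_pos.2 hQ0).ne'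
      field_simp
  have htail : ‖tail χ s‖ ≤ (E + 2) * (P * L) := by
    refine (norm_tail_le_split hχ1 (by rw [hre]; norm_num) le_rfl (hQ ▸ hQ1) h₁ (hQ ▸ h₂)
      (hQ ▸ h₃)).trans ?_
    have hlog : Real.log (((k * m : ℕ) : ℝ) / 1) ≤ L := by
      rw [div_one, hL, hQ]
      linarith
    have e1 := mul_le_mul_of_nonneg_left hlog (show 0 ≤ E * P by positivity)
    have e2 := le_mul_of_one_le_left (show 0 ≤ L by linarith) hP1
    rw [← hQ] at e1 ⊢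
    linarith
  rw [← hs, FA.Siegel.lfunction_eq hχ1 (by rw [hre]; norm_num), norm_mul]
  have hn : ‖s‖ ≤ 1 + |t| := by
    rw [hs]
    refine (norm_add_le _ _).trans (add_le_add ?_ (le_of_eq ?_))
    · norm_num
    · simp
  refine (mul_le_mul hn htail (norm_nonneg _) (by positivity)).trans ?_
  have e1 : P * L ≤ D * Q ^ ((3 : ℝ) / 16 + ε) := by
    refine (mul_le_mul_of_nonneg_left (hL ▸ hD Q hQ1) (by linarith)).trans (le_of_eq ?_)
    rw [hP, mul_left_comm, ← Real.rpow_add hQ0]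
    congr 2
    ring
  rw [← hQ]
  refine (mul_le_mul_of_nonneg_left (mul_le_mul_of_nonneg_left e1 (show 0 ≤ E + 2 by linarith))
    (by positivity)).trans (le_of_eq ?_)
  ring

/-- A power is saved beyond `q ^ (1/4 + δ)`. -/
theorem exists_power_saving (K : ℕ) {δ : ℝ} (hδ : 0 < δ) :
    ∃ η C : ℝ, 0 < η ∧ ∀ (k m : ℕ) [NeZero k] [NeZero m], k ≤ K → k.Coprime m → Squarefree m →
      1 < k * m → ∀ (χ : DirichletCharacter ℂ (k * m)), χ.IsPrimitive → ∀ M N : ℕ,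
        ((k * m : ℕ) : ℝ) ^ (1 / 4 + δ) ≤ N →
          ‖windowQ χ M N‖ ≤ C * ((k * m : ℕ) : ℝ) ^ (-η) * N := by
  obtain ⟨r, hr⟩ : ∃ r : ℕ, r = ⌈1 / δ⌉₊ + 1 := ⟨_, rfl⟩
  have hr1 : 1 ≤ r := by omega
  have hr0 : (0 : ℝ) < r := Nat.cast_pos.2 (by omega)
  have hrδ : 1 ≤ δ * r := by
    have h1 : 1 / δ ≤ (r : ℝ) := (Nat.le_ceil _).trans (Nat.cast_le.2 (by omega))
    rw [div_le_iff₀ hδ] at h1
    linarith
  obtain ⟨C, hC⟩ := exists_burgess_composite K hr1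
    (show 0 < 1 / (4 * (r : ℝ) ^ 2) by positivity)
  refine ⟨1 / (2 * (r : ℝ) ^ 2), max C 0, by positivity,
    fun k m _ _ hk hkm hm hq χ hχ M N hN => ?_⟩
  obtain ⟨Q, hQ⟩ : ∃ Q : ℝ, Q = ((k * m : ℕ) : ℝ) := ⟨_, rfl⟩
  rw [← hQ] at hN ⊢
  have hQ1 : 1 ≤ Q := hQ ▸ Nat.one_le_cast.2 hq.le
  have hQ0 : 0 < Q := by linarith
  have hN0 : (0 : ℝ) < N := lt_of_lt_of_le (Real.rpow_pos_of_pos hQ0 _) hN
  refine (hC k m hk hkm hm hq χ hχ M N).trans ?_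
  rw [burgessFnQ, ← hQ, mul_assoc (max C 0)]
  refine mul_le_mul (le_max_left _ _) ?_ (by positivity) (le_max_right _ _)
  have h : Q ^ (((r : ℝ) + 1) / (4 * (r : ℝ) ^ 2) + 1 / (4 * (r : ℝ) ^ 2)) ≤
      Q ^ (-(1 / (2 * (r : ℝ) ^ 2))) * (N : ℝ) ^ (1 / (r : ℝ)) := by
    refine le_trans ?_ (mul_le_mul_of_nonneg_left
      (Real.rpow_le_rpow (by positivity) hN (by positivity)) (by positivity))
    rw [← Real.rpow_mul hQ0.le, ← Real.rpow_add hQ0]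
    refine Real.rpow_le_rpow_of_exponent_le hQ1 ?_
    field_simp
    linarith
  refine (mul_le_mul_of_nonneg_left h (by positivity)).trans (le_of_eq ?_)
  rw [mul_left_comm, ← Real.rpow_add hN0, sub_add_cancel, Real.rpow_one]

/-- **`|L(1, χ)| ≤ (1/4 + ε) log q`.** -/
theorem exists_LOne_composite (K : ℕ) {ε : ℝ} (hε : 0 < ε) :
    ∃ q₀ : ℕ, ∀ (k m : ℕ) [NeZero k] [NeZero m], k ≤ K → k.Coprime m → Squarefree m →
      q₀ ≤ k * m → ∀ (χ : DirichletCharacter ℂ (k * m)), χ.IsPrimitive →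
        ‖LFunction χ 1‖ ≤ (1 / 4 + ε) * Real.log (k * m : ℕ) := by
  obtain ⟨δ, hδ⟩ : ∃ δ, δ = min ε 1 / 4 := ⟨_, rfl⟩
  have hδ0 : 0 < δ := hδ ▸ div_pos (lt_min hε one_pos) four_pos
  have hδε : δ ≤ ε / 4 := hδ ▸ by gcongr; exact min_le_left _ _
  have hδ1 : δ ≤ 1 / 4 := hδ ▸ by gcongr; exact min_le_right _ _
  obtain ⟨η, C, hη, hsave⟩ := exists_power_saving K hδ0
  have hlog : ∀ᶠ q : ℕ in atTop, 4 / ε ≤ Real.log q :=
    (Real.tendsto_log_atTop.comp tendsto_natCast_atTop_atTop).eventually_ge_atTop _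
  have hpow : ∀ᶠ q : ℕ in atTop, C * (q : ℝ) ^ (-η) ≤ ε / 4 := by
    have h : Tendsto (fun q : ℕ => C * (q : ℝ) ^ (-η)) atTop (nhds 0) := by
      simpa using ((tendsto_rpow_neg_atTop hη).comp tendsto_natCast_atTop_atTop).const_mul C
    exact h.eventually (eventually_le_nhds (div_pos hε four_pos))
  obtain ⟨q₁, hq₁⟩ := eventually_atTop.1 (hlog.and hpow)
  refine ⟨max q₁ 2, fun k m _ _ hk hkm hm hq χ hχ => ?_⟩
  have hq2 : 1 < k * m := lt_of_lt_of_le one_lt_two ((le_max_right _ _).trans hq)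
  obtain ⟨hlogq, hpowq⟩ := hq₁ (k * m) ((le_max_left _ _).trans hq)
  have : NeZero (k * m) := ⟨by omega⟩
  have hχ1 := ne_one_of_isPrimitive hq2 hχ
  obtain ⟨Q, hQ⟩ : ∃ Q : ℝ, Q = ((k * m : ℕ) : ℝ) := ⟨_, rfl⟩
  rw [← hQ] at hlogq hpowq ⊢
  have hp1 : 1 ≤ Q := hQ ▸ Nat.one_le_cast.2 hq2.le
  have hp0 : 0 < Q := by linarith
  obtain ⟨u, hu⟩ : ∃ u, u = Q ^ (1 / 4 + δ) := ⟨_, rfl⟩
  have hu1 : 1 ≤ u := hu ▸ Real.one_le_rpow hp1 (by linarith)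
  obtain ⟨X, hX⟩ : ∃ X : ℕ, X = ⌈u⌉₊ := ⟨_, rfl⟩
  have huX : u ≤ X := hX ▸ Nat.le_ceil u
  have hXp : (X : ℝ) ≤ Q := by
    rw [hQ]
    refine Nat.cast_le.2 (hX ▸ Nat.ceil_le.2 (hu ▸ ?_))
    conv_rhs => rw [← hQ, ← Real.rpow_one Q]
    exact Real.rpow_le_rpow_of_exponent_le hp1 (by linarith)
  have h₁ : ‖∫ t in Set.Ioc (1 : ℝ) X, charSum χ t * (t : ℂ) ^ (-((1 : ℂ) + 1))‖ ≤
      1 * Real.log (X / 1) :=
    BurgessApplications.norm_piece_le (e := 1) one_pos (hu1.trans huX) (fun t ht => by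
      rw [Real.rpow_one, one_mul]
      exact FA.Siegel.norm_charSum_le_self (one_pos.trans ht.1).le) (by simp)
  have h₂ : ‖∫ t in Set.Ioc (X : ℝ) Q, charSum χ t * (t : ℂ) ^ (-((1 : ℂ) + 1))‖ ≤
      ε / 4 * Real.log (Q / X) := by
    refine BurgessApplications.norm_piece_le (e := 1) (by linarith) hXp (fun t ht => ?_) (by simp)
    have ht0 : 0 < t := lt_of_lt_of_le (by linarith) ht.1.le
    rw [charSum_eq_windowQ, Real.rpow_one]
    refine (hsave k m hk hkm hm hq2 χ hχ 0 ⌊t⌋₊ ?_).trans ?_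
    · rw [← hQ, ← hu]
      exact huX.trans (Nat.cast_le.2 (Nat.le_floor ht.1.le))
    · rw [← hQ]
      exact mul_le_mul hpowq (Nat.floor_le ht0.le) (Nat.cast_nonneg _) (by linarith)
  have h₃ : ‖∫ t in Set.Ioi Q, charSum χ t * (t : ℂ) ^ (-((1 : ℂ) + 1))‖ ≤ 1 := by
    refine (BurgessApplications.norm_beyond_le hp0 (by simp)
      fun t _ => FA.Siegel.norm_charSum_le hχ1 t).trans (le_of_eq ?_)
    rw [← hQ, Complex.one_re, Real.rpow_neg_one, div_one, mul_inv_cancel₀ hp0.ne']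
  rw [FA.Siegel.lfunction_eq hχ1 (by simp), one_mul]
  refine (norm_tail_le_split hχ1 (by simp) (hu1.trans huX) (hQ ▸ hXp) h₁ (hQ ▸ h₂)
    (hQ ▸ h₃)).trans ?_
  rw [← hQ]
  have hlogX : Real.log ((X : ℝ) / 1) ≤ Real.log 2 + (1 / 4 + δ) * Real.log Q := by
    have h := (Nat.ceil_lt_add_one (zero_le_one.trans hu1)).le
    rw [← hX] at h
    rw [div_one, ← Real.log_rpow hp0, ← hu, ← Real.log_mul two_ne_zero (by linarith)]
    exact Real.log_le_log (by linarith) (by linarith)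
  have hlogq' : ε / 4 * Real.log (Q / X) ≤ ε / 4 * Real.log Q :=
    mul_le_mul_of_nonneg_left (Real.log_le_log (div_pos hp0 (by linarith))
      (div_le_self hp0.le (hu1.trans huX))) (by linarith)
  have h4 : 4 ≤ ε * Real.log Q := by
    rw [div_le_iff₀ hε] at hlogq
    linarith
  have h5 := mul_le_mul_of_nonneg_right hδε (Real.log_nonneg hp1)
  linarith [Real.log_two_lt_d9]

open FA.OrderTheta (Cl signChar) in
/-- **Class numbers.** -/
theorem exists_classNumber_le {ε : ℝ} (hε : 0 < ε) :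
    ∃ n₀ : ℕ, ∀ (n : ℕ) [NeZero n], n₀ ≤ n → Squarefree n → n % 4 = 1 →
      (Nat.card (Cl n) : ℝ) ≤
        (1 / (4 * Real.pi) + ε) * Real.sqrt (4 * n : ℕ) * Real.log (4 * n : ℕ) := by
  obtain ⟨q₀, hq₀⟩ := exists_LOne_composite 4 (show 0 < ε * Real.pi by positivity)
  refine ⟨max q₀ 2, fun n _ hn hsq h4 => ?_⟩
  have hn1 : 1 < n := lt_of_lt_of_le one_lt_two ((le_max_right _ _).trans hn)
  have hcop : Nat.Coprime 4 n := by
    rw [Nat.coprime_iff_gcd_eq_one, Nat.gcd_rec, h4]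
    rfl
  have h := hq₀ 4 n le_rfl hcop hsq (le_trans ((le_max_left _ _).trans hn) (by omega)) (signChar n)
    (ClassNumberExtremes.signChar_isPrimitive hsq h4)
  rw [ClassNumberExtremes.LFunction_eq_LVal, Complex.norm_real, Real.norm_eq_abs] at h
  rw [ClassNumberExtremes.card_cl_eq hn1]
  have h1 := mul_le_mul_of_nonneg_left ((le_abs_self _).trans h)
    (show 0 ≤ 2 * Real.sqrt n / Real.pi by positivity)
  refine h1.trans (le_of_eq ?_)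
  rw [show Real.sqrt ((4 * n : ℕ) : ℝ) = 2 * Real.sqrt n by
    rw [Nat.cast_mul, Real.sqrt_mul (by norm_num), show ((4 : ℕ) : ℝ) = 2 ^ 2 by norm_num,
      Real.sqrt_sq (by norm_num)]]
  field_simp

end FA.BurgessComposite

end
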