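import Fermat.Agent.BurgessComposite.CompleteSum

/-!
# The moments of the short sums

For `q = k m`, `(k, m) = 1`, `m` squarefree and `χ` primitive modulo `q`:
`∑_x |∑_{b ≤ B} χ (x + b)| ^ (2 r) ≤ r ^ (2 r) B ^ r q + O_r (k (4 r) ^ (2 r ω(m)) √m B ^ (2 r))`,
as `gcd (m, ∏ |t j - t i|) ^ (1/2)` is a power of `2 ^ ω(m)` on average.
-/

set_option autoImplicit false

noncomputable section

namespace FA.BurgessComposite

open Finset DirichletCharacter

variable {r : ℕ}

/-- `∑_{b ≤ B} χ (x + b)`. -/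
def shortSumQ {q : ℕ} (χ : DirichletCharacter ℂ q) (B : ℕ) (x : ZMod q) : ℂ :=
  ∑ b ∈ Icc 1 B, χ (x + (b : ZMod q))

theorem sum_sqrt_gcd_le (m B : ℕ) (hm : m ≠ 0) :
    ∑ h ∈ Icc 1 B, Real.sqrt (Nat.gcd m h : ℕ) ≤ m.divisors.card * B := by
  refine (sum_le_sum (g := fun h => ∑ d ∈ m.divisors, if d ∣ h then Real.sqrt d else 0)
    fun h hh => ?_).trans ?_
  · refine le_trans (le_of_eq (if_pos (Nat.gcd_dvd_right m h)).symm)
      (single_le_sum (f := fun d => if d ∣ h then Real.sqrt d else 0)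
        (fun d _ => by split_ifs <;> positivity)
        (Nat.mem_divisors.2 ⟨Nat.gcd_dvd_left m h, hm⟩))
  rw [sum_comm]
  refine (sum_le_card_nsmul _ _ (B : ℝ) fun d hd => ?_).trans (le_of_eq (nsmul_eq_mul _ _))
  rw [← sum_filter, sum_const, nsmul_eq_mul]
  have hd0 : 0 < d := Nat.pos_of_mem_divisors hd
  have h1 : ((Icc 1 B).filter (d ∣ ·)).card ≤ B / d := by
    rw [show Icc 1 B = Ioc 0 B by ext; simp; omega, Nat.Ioc_filter_dvd_card_eq_div]
  refine (mul_le_mul (Nat.cast_le.2 h1) (show Real.sqrt d ≤ d from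
    Real.sqrt_le_self_iff.2 (Or.inr (Nat.one_le_cast.2 hd0))) (Real.sqrt_nonneg _)
    (Nat.cast_nonneg _)).trans ?_
  rw [← Nat.cast_mul]
  exact Nat.cast_le.2 (Nat.div_mul_le_self B d)

/-- The weight of a difference. -/
def diffWeight (m u v : ℕ) : ℝ :=
  if u = v then 0 else Real.sqrt (Nat.gcd m ((u : ℤ) - v).natAbs : ℕ)

theorem diffWeight_nonneg (m u v : ℕ) : 0 ≤ diffWeight m u v := by
  rw [diffWeight]
  split_ifs <;> positivity

theorem sum_diffWeight_le (m B v : ℕ) (hm : m ≠ 0) (hv : v ∈ Icc 1 B) :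
    ∑ u ∈ Icc 1 B, diffWeight m u v ≤ 2 * (m.divisors.card * B) := by
  rw [mem_Icc] at hv
  rw [two_mul, ← sum_filter_add_sum_filter_not (Icc 1 B) fun u => v ≤ u]
  have hside : ∀ s : Finset ℕ, (∀ u ∈ s, u ≠ v → ((u : ℤ) - v).natAbs ≤ B) →
      Set.InjOn (fun u : ℕ => ((u : ℤ) - v).natAbs) s →
      ∑ u ∈ s, diffWeight m u v ≤ m.divisors.card * B := by
    intro s hs hinj
    refine le_trans ?_ (sum_sqrt_gcd_le m B hm)
    refine le_trans (le_of_eq ?_) (sum_le_sum_of_subset_of_nonneg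
      (s := (s.filter (· ≠ v)).image fun u : ℕ => ((u : ℤ) - v).natAbs) (fun h hh => ?_)
      fun _ _ _ => Real.sqrt_nonneg _)
    · rw [sum_image (hinj.mono (coe_subset.2 (filter_subset _ _))), sum_filter]
      refine sum_congr rfl fun u _ => ?_
      rw [diffWeight]
      split_ifs with h <;> simp_all
    · obtain ⟨u, hu, rfl⟩ := mem_image.1 hh
      rw [mem_filter] at hu
      rw [mem_Icc]
      exact ⟨Nat.one_le_iff_ne_zero.2
        (Int.natAbs_ne_zero.2 (sub_ne_zero.2 (by exact_mod_cast hu.2))),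
        hs u hu.1 hu.2⟩
  refine add_le_add (hside _ (fun u hu _ => ?_) fun a ha b hb h => ?_)
    (hside _ (fun u hu _ => ?_) fun a ha b hb h => ?_)
  all_goals simp only [coe_filter, mem_filter, mem_Icc, Set.mem_ofPred_eq] at *
  all_goals omega

/-- The average of `gcd (m, ∏_{j ≠ i} (t j - t i)) ^ (1/2)`. -/
theorem sum_prod_diffWeight_le (m B : ℕ) (hm : m ≠ 0) (i : Fin (2 * r)) :
    ∑ t ∈ Fintype.piFinset (fun _ : Fin (2 * r) => Icc 1 B),
        ∏ j ∈ univ.erase i, diffWeight m (t j) (t i) ≤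
      B * (2 * (m.divisors.card * B) : ℝ) ^ (2 * r - 1) := by
  classical
  have hh : ∀ t ∈ Fintype.piFinset (fun _ : Fin (2 * r) => Icc 1 B),
      ∏ j ∈ univ.erase i, diffWeight m (t j) (t i) =
        ∑ v ∈ Icc 1 B, ∏ j : Fin (2 * r),
          if j = i then (if t j = v then 1 else 0) else diffWeight m (t j) v := by
    intro t ht
    rw [sum_eq_single (t i) (fun v _ hv => ?_)
      (fun h => absurd (Fintype.mem_piFinset.1 ht i) h),
      ← mul_prod_erase _ _ (mem_univ i), if_pos rfl, if_pos rfl, one_mul]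
    · exact prod_congr rfl fun j hj => (if_neg (ne_of_mem_erase hj)).symm
    · exact prod_eq_zero (mem_univ i) (by rw [if_pos rfl, if_neg hv.symm])
  rw [sum_congr rfl hh, sum_comm]
  refine (sum_le_card_nsmul _ _ ((2 * (m.divisors.card * B) : ℝ) ^ (2 * r - 1))
    fun v hv => ?_).trans (le_of_eq (by simp))
  rw [← prod_univ_sum (κ := fun _ : Fin (2 * r) => ℕ) (fun _ => Icc 1 B)
    fun j u => if j = i then (if u = v then 1 else 0) else diffWeight m u v,
    ← mul_prod_erase _ _ (mem_univ i)]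
  simp only [if_pos, sum_ite_eq', if_pos hv, one_mul]
  refine (prod_le_prod (g := fun _ => (2 * (m.divisors.card * B) : ℝ)) (fun j hj => ?_)
    fun j hj => ?_).trans (le_of_eq ?_)
  · simp only [if_neg (ne_of_mem_erase hj)]
    exact sum_nonneg fun u _ => diffWeight_nonneg m u v
  · simp only [if_neg (ne_of_mem_erase hj)]
    exact sum_diffWeight_le m B v hm hv
  · rw [prod_const, card_erase_of_mem (mem_univ i), card_univ, Fintype.card_fin]

theorem sqrt_gcd_le_prod {ι : Type*} (s : Finset ι) (f : ι → ℕ) {m : ℕ} (hm : m ≠ 0) :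
    Real.sqrt (Nat.gcd m (∏ j ∈ s, f j) : ℕ) ≤ ∏ j ∈ s, Real.sqrt (Nat.gcd m (f j) : ℕ) := by
  classical
  induction s using Finset.induction_on with
  | empty => simp
  | insert a s ha ih =>
    rw [prod_insert ha, prod_insert ha]
    refine le_trans ?_ (mul_le_mul_of_nonneg_left ih (Real.sqrt_nonneg _))
    rw [← Real.sqrt_mul (Nat.cast_nonneg _), ← Nat.cast_mul]
    exact Real.sqrt_le_sqrt (Nat.cast_le.2 (Nat.le_of_dvd
      (Nat.mul_pos (Nat.gcd_pos_of_pos_left _ (Nat.pos_of_ne_zero hm))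
        (Nat.gcd_pos_of_pos_left _ (Nat.pos_of_ne_zero hm)))
      (gcd_mul_dvd_mul_gcd m (f a) (∏ j ∈ s, f j))))

theorem norm_shortSum_pow {q : ℕ} (χ : DirichletCharacter ℂ q) (B : ℕ) (x : ZMod q) :
    ((‖shortSumQ χ B x‖ ^ (2 * r) : ℝ) : ℂ) =
      ∑ t ∈ Fintype.piFinset (fun _ : Fin (2 * r) => Icc 1 B),
        ∏ i, halfConj r i (χ (x + ((t i : ℕ) : ZMod q))) := by
  rw [← prod_univ_sum (κ := fun _ : Fin (2 * r) => ℕ) (fun _ => Icc 1 B)
    fun i b => halfConj r i (χ (x + (b : ZMod q)))]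
  have h : ∀ i : Fin (2 * r), ∑ b ∈ Icc 1 B, halfConj r i (χ (x + (b : ZMod q))) =
      if (i : ℕ) < r then shortSumQ χ B x else (starRingEnd ℂ) (shortSumQ χ B x) := fun i => by
    rw [halfConj]
    split_ifs with hi <;> simp [shortSumQ, map_sum]
  rw [prod_congr rfl fun i _ => h i, Fin.prod_univ_eq_prod_range
    (fun i => if i < r then shortSumQ χ B x else (starRingEnd ℂ) (shortSumQ χ B x)) (2 * r),
    two_mul, prod_range_add]
  rw [prod_congr rfl fun i hi => if_pos (mem_range.1 hi),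
    prod_congr rfl fun i _ => if_neg (not_lt.2 (Nat.le_add_right r i)), prod_const, prod_const,
    card_range, ← mul_pow, Complex.mul_conj', ← pow_mul, ← two_mul, Complex.ofReal_pow]

/-- **The moment.** -/
theorem sum_norm_shortSumQ_pow_le {k m : ℕ} [NeZero k] [NeZero m] (hkm : k.Coprime m)
    (hm : Squarefree m) {χ : DirichletCharacter ℂ (k * m)} (hχ : χ.IsPrimitive) (hr : 1 ≤ r)
    (B : ℕ) :
    ∑ x : ZMod (k * m), ‖shortSumQ χ B x‖ ^ (2 * r) ≤
      (r : ℝ) ^ (2 * r) * (B : ℝ) ^ r * (k * m : ℕ) +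
        k * (2 * r : ℝ) ^ m.primeFactors.card * Real.sqrt m *
          ((2 * r : ℕ) * ((2 * m.divisors.card : ℝ) ^ (2 * r - 1) * (B : ℝ) ^ (2 * r))) := by
  classical
  have hm0 : m ≠ 0 := NeZero.ne m
  obtain ⟨K, hK⟩ : ∃ K : ℝ, K = k * (2 * r : ℝ) ^ m.primeFactors.card * Real.sqrt m := ⟨_, rfl⟩
  rw [← hK]
  have hK0 : 0 ≤ K := hK ▸ by positivity
  have hsum : ((∑ x : ZMod (k * m), ‖shortSumQ χ B x‖ ^ (2 * r) : ℝ) : ℂ) =
      ∑ t ∈ Fintype.piFinset (fun _ : Fin (2 * r) => Icc 1 B), completeSum χ t := by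
    rw [Complex.ofReal_sum, sum_congr rfl fun x _ => norm_shortSum_pow χ B x, sum_comm]
    rfl
  rw [← abs_of_nonneg (show 0 ≤ ∑ x : ZMod (k * m), ‖shortSumQ χ B x‖ ^ (2 * r) by positivity),
    ← Real.norm_eq_abs, ← Complex.norm_real, hsum,
    ← sum_filter_add_sum_filter_not _ fun t : Fin (2 * r) → ℕ => (univ.image t).card ≤ r]
  refine (norm_add_le _ _).trans (add_le_add ?_ ?_)
  · refine (norm_sum_le_of_le _ fun t _ => norm_completeSum_le_self χ t).trans ?_
    rw [sum_const, nsmul_eq_mul]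
    refine mul_le_mul_of_nonneg_right ?_ (Nat.cast_nonneg _)
    have := (Nat.cast_le (α := ℝ)).2 (Burgess.card_small_image_le B r hr)
    push_cast at this
    exact this
  refine (norm_sum_le_of_le _ (n := fun t => K * ∑ i : Fin (2 * r),
    ∏ j ∈ univ.erase i, diffWeight m (t j) (t i)) fun t ht => ?_).trans ?_
  · rw [mem_filter] at ht
    -- some value occurs only once
    obtain ⟨i₀, hi₀⟩ : ∃ i₀, ∀ i, t i = t i₀ → i = i₀ := by
      by_contra! h
      refine ht.2 ?_
      have h1 := card_nsmul_le_sum (univ.image t)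
        (fun v => (univ.filter fun i => t i = v).card) 2 ?_
      · rw [← card_eq_sum_card_image, card_univ, Fintype.card_fin, smul_eq_mul] at h1
        omega
      · intro v hv
        obtain ⟨i, -, rfl⟩ := mem_image.1 hv
        obtain ⟨j, hj, hji⟩ := h i
        exact one_lt_card.2 ⟨j, by simp [hj], i, by simp, hji⟩
    refine (norm_completeSum_le hkm hm hχ t i₀).trans ?_
    rw [hK, ← mul_assoc, ← mul_assoc]
    refine mul_le_mul_of_nonneg_left ?_ (by positivity)
    refine le_trans ?_ (single_le_sum (fun i _ => prod_nonneg fun j _ => diffWeight_nonneg _ _ _)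
      (mem_univ i₀))
    refine (sqrt_gcd_le_prod _ _ hm0).trans (le_of_eq (prod_congr rfl fun j hj => ?_))
    rw [diffWeight, if_neg fun h => ne_of_mem_erase hj (hi₀ j h)]
  rw [← mul_sum]
  refine mul_le_mul_of_nonneg_left ?_ hK0
  refine (sum_le_sum_of_subset_of_nonneg (filter_subset _ _) fun t _ _ =>
    sum_nonneg fun i _ => prod_nonneg fun j _ => diffWeight_nonneg _ _ _).trans ?_
  rw [sum_comm]
  refine (sum_le_card_nsmul _ _ _ fun i _ => sum_prod_diffWeight_le m B hm0 i).trans (le_of_eq ?_)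
  obtain ⟨s, hs⟩ : ∃ s, 2 * r = s + 1 := ⟨2 * r - 1, by omega⟩
  rw [card_univ, Fintype.card_fin, nsmul_eq_mul, hs, Nat.add_sub_cancel]
  ring

end FA.BurgessComposite

end
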